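import Mathlib
import Fermat.Prelude.Def_FLTPrelim_Modularity

/-!
# S58 (sandbox, helper19): the trivial bound `|a_q| ≤ q`

A Weierstrass curve over a finite field `F` with `q` elements has at most `2 q + 1` (and at least
one) points: above every `x` there are at most two `y`.  Hence `-q ≤ a_q ≤ q` for
`a_q = q + 1 - #Ē(𝔽_q)`; in particular `a_q ≠ ± (q + 1)`.
-/

set_option autoImplicit false
set_option linter.unusedSectionVars false
set_option linter.style.haveILetI false
set_option linter.unusedSimpArgs false

noncomputable section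

namespace Fermat.Agent.S58.PointCount

open Polynomial

section Count

variable {F : Type} [Field F]

/-- the polynomial in `Y` cutting out the fibre above `x` -/
def fibrePoly (W : WeierstrassCurve F) (x : F) : F[X] :=
  X ^ 2 + C (W.a₁ * x + W.a₃) * X - C (x ^ 3 + W.a₂ * x ^ 2 + W.a₄ * x + W.a₆)

theorem fibrePoly_natDegree (W : WeierstrassCurve F) (x : F) : (fibrePoly W x).natDegree = 2 := by
  unfold fibrePoly
  compute_degree!

theorem fibrePoly_ne_zero (W : WeierstrassCurve F) (x : F) : fibrePoly W x ≠ 0 := by
  intro h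
  have := fibrePoly_natDegree W x
  rw [h, natDegree_zero] at this
  exact absurd this (by norm_num)

theorem mem_roots_of_equation (W : WeierstrassCurve F) {x y : F}
    (h : W.toAffine.Equation x y) : y ∈ (fibrePoly W x).roots := by
  rw [mem_roots (fibrePoly_ne_zero W x), IsRoot.def]
  rw [WeierstrassCurve.Affine.equation_iff'] at h
  unfold fibrePoly
  simp only [eval_sub, eval_add, eval_pow, eval_X, eval_mul, eval_C]
  rw [← h]
  change _ = y ^ 2 + W.a₁ * x * y + W.a₃ * y - (x ^ 3 + W.a₂ * x ^ 2 + W.a₄ * x + W.a₆)
  ring

variable [Fintype F]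

theorem card_solutions_le (W : WeierstrassCurve F) [DecidablePred fun xy : F × F =>
    W.toAffine.Equation xy.1 xy.2] :
    (Finset.univ.filter fun xy : F × F => W.toAffine.Equation xy.1 xy.2).card ≤
      2 * Fintype.card F := by
  classical
  set Z : Finset (F × F) := Finset.univ.filter fun xy : F × F => W.toAffine.Equation xy.1 xy.2
    with hZ
  have h1 : Z.card ≤ 2 * (Z.image Prod.fst).card := by
    refine Finset.card_le_mul_card_image Z 2 fun a _ => ?_
    have h2 : (Z.filter fun xy => xy.1 = a).card ≤ (fibrePoly W a).roots.toFinset.card := by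
      refine Finset.card_le_card_of_injOn Prod.snd ?_ ?_
      · intro xy hxy
        rw [Finset.mem_coe, Finset.mem_filter, hZ, Finset.mem_filter] at hxy
        obtain ⟨⟨-, he⟩, ha⟩ := hxy
        rw [Finset.mem_coe, Multiset.mem_toFinset, ← ha]
        exact mem_roots_of_equation W he
      · intro xy hxy xy' hxy' h
        rw [Finset.mem_coe, Finset.mem_filter] at hxy hxy'
        exact Prod.ext (hxy.2.trans hxy'.2.symm) h
    refine h2.trans ((Multiset.toFinset_card_le _).trans ?_)
    exact (card_roots' _).trans (fibrePoly_natDegree W a).le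
  exact h1.trans (Nat.mul_le_mul_left 2 (Finset.card_le_univ _))

/-- a Weierstrass curve over a finite field with `q` elements has at most `2 q + 1` points -/
theorem card_point_le (W : WeierstrassCurve F) :
    Nat.card W.toAffine.Point ≤ 2 * Fintype.card F + 1 := by
  classical
  let Z := {xy : F × F // W.toAffine.Equation xy.1 xy.2}
  let g : W.toAffine.Point → Option Z := fun P =>
    match P with
    | .zero => none
    | .some x y h => some ⟨(x, y), h.1⟩
  have hg : Function.Injective g := by
    rintro (_ | ⟨x₁, y₁, h₁⟩) (_ | ⟨x₂, y₂, h₂⟩) h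
    · rfl
    · exact absurd h (by simp [g])
    · exact absurd h (by simp [g])
    · simp only [g, Option.some.injEq, Subtype.mk.injEq, Prod.mk.injEq] at h
      obtain ⟨rfl, rfl⟩ := h
      rfl
  have h1 := Nat.card_le_card_of_injective g hg
  have h2 : Nat.card (Option Z) = Fintype.card Z + 1 := by
    rw [Nat.card_eq_fintype_card, Fintype.card_option]
  rw [h2, Fintype.card_subtype] at h1
  exact h1.trans (Nat.succ_le_succ (card_solutions_le W))

end Count

/-- **the trivial bound** `-q ≤ a_q ≤ q` -/
theorem apOfModel_bounds (W : WeierstrassCurve ℤ) {q : ℕ} (hq : q.Prime) :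
    -(q : ℤ) ≤ W.apOfModel q ∧ W.apOfModel q ≤ q := by
  haveI : Fact q.Prime := ⟨hq⟩
  have hle := card_point_le (W.reductionMod q)
  rw [ZMod.card] at hle
  have hpos : 0 < Nat.card (W.reductionMod q).toAffine.Point := Nat.card_pos
  unfold WeierstrassCurve.apOfModel WeierstrassCurve.traceOfFrobenius WeierstrassCurve.card
  rw [Nat.card_zmod]
  constructor <;> omega

theorem apOfModel_ne (W : WeierstrassCurve ℤ) {q : ℕ} (hq : q.Prime) :
    W.apOfModel q ≠ (q : ℤ) + 1 ∧ W.apOfModel q ≠ -((q : ℤ) + 1) := by
  obtain ⟨h1, h2⟩ := apOfModel_bounds W hq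
  constructor <;> omega

end Fermat.Agent.S58.PointCount
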