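import Mathlib
import Fermat.Agent.S36.Kolchin

/-!
# S58 (sandbox, helper19): absolute irreducibility from an annihilation comparison

Abstract group theory behind `hres` of S36 in the proof of S58.

`G` a group, `p` an odd prime, `V₀` a two-dimensional `𝔽_p`-representation `A` of `G`, IRREDUCIBLE
over `𝔽_p`; `R` a two-dimensional representation of `G` over a field `k ⊇ 𝔽_p` such that for every
`σ` the trace and determinant of `R σ` lie in `𝔽_p` and `X² - tr X + det` ANNIHILATES `A σ`
(`hcmp`); `c ∈ G` an involution with `det R(c) = -1`.  Then `R ⊗ K` is irreducible for every field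
`K ⊇ k` (`irreducible_baseChange`).

Proof.  Let `w` span a stable line of `K ⊗ V_k`.  On the normal subgroup `H` of the `σ` fixing `w`
with `det R σ = 1` the trace of `R σ` is `2`, so `(A σ - 1)² = 0`; by Kolchin `H` has a nonzero
fixed vector in `V₀`, the fixed space is `G`-stable, so `H` acts trivially on `V₀`.  All commutators
lie in `H`, so `A(G)` is commutative; hence `A c` (an involution) is central, its eigenspaces are
stable, `A c = ± 1`.  Comparing `hcmp` at `σ` and at `σ c` (`det R(σ c) = - det R σ`) gives
`(∗) A σ + 2 det = 0` with `2 det ≠ 0`: every `A σ` is a scalar, contradicting irreducibility.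
-/

set_option autoImplicit false
set_option linter.unusedSectionVars false
set_option linter.style.haveILetI false

noncomputable section

namespace Fermat.Agent.S58.AbsIrr

open scoped TensorProduct
open Polynomial

/-! ### Rank two linear algebra -/

section RankTwo

variable {K : Type*} [Field K] {V : Type*} [AddCommGroup V] [Module K V]

/-- Cayley-Hamilton in rank two. -/
theorem cayley_hamilton_two [Module.Finite K V] (h2 : Module.finrank K V = 2)
    (f : Module.End K V) :
    f * f - LinearMap.trace K V f • f + LinearMap.det f • (1 : Module.End K V) = 0 := by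
  classical
  let b := Module.finBasisOfFinrankEq K V h2
  have hc : LinearMap.charpoly f =
      X ^ 2 - C (LinearMap.trace K V f) * X + C (LinearMap.det f) := by
    rw [← LinearMap.charpoly_toMatrix f b, Matrix.charpoly_fin_two,
      ← LinearMap.trace_eq_matrix_trace K b f, LinearMap.det_toMatrix]
  have h := LinearMap.aeval_self_charpoly f
  rw [hc] at h
  simp only [map_add, map_sub, map_mul, map_pow, aeval_X, aeval_C,
    Module.algebraMap_end_eq_smul_id] at h
  rw [sq, smul_mul_assoc, ← Module.End.one_eq_id, one_mul] at h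
  exact h

/-- an eigenvalue is a root of `X² - tr X + det` -/
theorem eigen_quadratic [Module.Finite K V] (h2 : Module.finrank K V = 2) (f : Module.End K V)
    {w : V} (hw : w ≠ 0) {a : K} (ha : f w = a • w) :
    a * a - LinearMap.trace K V f * a + LinearMap.det f = 0 := by
  have h := congrArg (fun g : Module.End K V => g w) (cayley_hamilton_two h2 f)
  simp only [LinearMap.add_apply, LinearMap.sub_apply, Module.End.mul_apply, LinearMap.smul_apply,
    Module.End.one_apply, LinearMap.zero_apply, ha, map_smul] at h
  have h' : (a * a - LinearMap.trace K V f * a + LinearMap.det f) • w = 0 := by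
    rw [← h, add_smul, sub_smul, mul_smul, mul_smul]
  exact (smul_eq_zero.1 h').resolve_right hw

/-- `(f - 1)² = 0` in rank two gives `charpoly f = (X - 1)²` -/
theorem charpoly_of_sub_one_sq [Module.Finite K V] (h2 : Module.finrank K V = 2)
    (f : Module.End K V) (hf : (f - 1) * (f - 1) = 0) :
    LinearMap.charpoly f = (X - 1) ^ 2 := by
  classical
  let b := Module.finBasisOfFinrankEq K V h2
  set g : Module.End K V := f - 1 with hg
  have hCH := cayley_hamilton_two h2 g
  rw [hf, zero_sub] at hCH
  -- `det g = 0`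
  have hdet : LinearMap.det g = 0 := by
    have : LinearMap.det g * LinearMap.det g = 0 := by
      rw [← map_mul, hf]
      exact LinearMap.det_zero' b
    exact mul_self_eq_zero.1 this
  rw [hdet, zero_smul, add_zero, neg_eq_zero] at hCH
  -- `tr g = 0`
  have htr : LinearMap.trace K V g = 0 := by
    rcases smul_eq_zero.1 hCH with h | h
    · exact h
    · rw [h, map_zero]
  have htrf : LinearMap.trace K V f = 2 := by
    have : LinearMap.trace K V f = LinearMap.trace K V g + LinearMap.trace K V 1 := by
      rw [← map_add, hg, sub_add_cancel]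
    rw [this, htr, LinearMap.trace_one, h2]
    norm_num
  have hdetf : LinearMap.det f = 1 := by
    -- `det (1 + g) = 1 + tr g + det g` in rank two
    have hM : LinearMap.toMatrix b b f = 1 + LinearMap.toMatrix b b g := by
      rw [hg, map_sub, LinearMap.toMatrix_one]
      abel
    rw [← LinearMap.det_toMatrix b, hM, Matrix.det_fin_two]
    have t0 : (LinearMap.toMatrix b b g).trace = 0 := by
      rw [← LinearMap.trace_eq_matrix_trace K b g, htr]
    have d0 : (LinearMap.toMatrix b b g).det = 0 := by
      rw [LinearMap.det_toMatrix, hdet]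
    rw [Matrix.trace_fin_two] at t0
    rw [Matrix.det_fin_two] at d0
    simp only [Matrix.add_apply, Matrix.one_apply_eq, Matrix.one_apply_ne
      (show (0 : Fin 2) ≠ 1 by decide), Matrix.one_apply_ne (show (1 : Fin 2) ≠ 0 by decide)]
    linear_combination t0 + d0
  rw [← LinearMap.charpoly_toMatrix f b, Matrix.charpoly_fin_two,
    ← LinearMap.trace_eq_matrix_trace K b f, LinearMap.det_toMatrix, htrf, hdetf]
  rw [map_ofNat, map_one]
  ring

end RankTwo

/-! ### The main theorem -/

section Main

variable {G : Type*} [Group G] {p : ℕ} [Fact p.Prime]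
variable {V₀ : Type*} [AddCommGroup V₀] [Module (ZMod p) V₀]
variable {k : Type*} [Field k] [Algebra (ZMod p) k]
variable {Vk : Type*} [AddCommGroup Vk] [Module k Vk]

/-- the comparison hypothesis: trace and determinant of `R σ` come from `𝔽_p` and the quadratic
polynomial they define annihilates `A σ` -/
def Cmp (A : G →* Module.End (ZMod p) V₀) (R : G →* Module.End k Vk) : Prop :=
  ∀ σ : G, ∃ b e : ZMod p, algebraMap (ZMod p) k b = LinearMap.trace k Vk (R σ) ∧
    algebraMap (ZMod p) k e = LinearMap.det (R σ) ∧
    A σ * A σ - b • A σ + e • (1 : Module.End (ZMod p) V₀) = 0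

variable (hp2 : p ≠ 2) (h2 : Module.finrank (ZMod p) V₀ = 2)
  (A : G →* Module.End (ZMod p) V₀)
  (hirr : ∀ N : Submodule (ZMod p) V₀, (∀ σ : G, ∀ x ∈ N, A σ x ∈ N) → N = ⊥ ∨ N = ⊤)
  (hk2 : Module.finrank k Vk = 2) (R : G →* Module.End k Vk) (hcmp : Cmp A R)

include hp2 in
theorem two_ne_zero_zmod : (2 : ZMod p) ≠ 0 := by
  have hp : p.Prime := Fact.out
  intro h
  have h' : ((2 : ℕ) : ZMod p) = 0 := by exact_mod_cast h
  rw [ZMod.natCast_eq_zero_iff] at h'
  exact hp2 ((Nat.prime_dvd_prime_iff_eq hp Nat.prime_two).1 h')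

include h2 hirr in
/-- not every `A σ` is a scalar -/
theorem not_all_scalar (hsc : ∀ σ : G, ∃ a : ZMod p, A σ = a • (1 : Module.End (ZMod p) V₀)) :
    False := by
  haveI : Module.Finite (ZMod p) V₀ := Module.finite_of_finrank_eq_succ h2
  haveI : Nontrivial V₀ := Module.nontrivial_of_finrank_pos (R := ZMod p) (by rw [h2]; norm_num)
  obtain ⟨v, hv⟩ := exists_ne (0 : V₀)
  have hst : ∀ σ : G, ∀ x ∈ Submodule.span (ZMod p) {v}, A σ x ∈ Submodule.span (ZMod p) {v} := by
    intro σ x hx
    obtain ⟨a, ha⟩ := hsc σ
    rw [ha, LinearMap.smul_apply, Module.End.one_apply]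
    exact Submodule.smul_mem _ _ hx
  rcases hirr _ hst with h | h
  · exact hv ((Submodule.span_singleton_eq_bot).1 h)
  · have h1 : Module.finrank (ZMod p) (Submodule.span (ZMod p) {v}) ≤ 1 :=
      (finrank_span_le_card ({v} : Set V₀)).trans (by simp)
    rw [h, finrank_top, h2] at h1
    omega

include hp2 h2 hirr hk2 hcmp in
/-- **irreducibility over every extension field** -/
theorem irreducible_baseChange (c : G) (hc : c * c = 1) (hdet : LinearMap.det (R c) = -1)
    (K : Type*) [Field K] [Algebra k K] :
    ∀ W : Submodule K (K ⊗[k] Vk),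
      (∀ σ : G, ∀ x ∈ W, (R σ).baseChange K x ∈ W) → W = ⊥ ∨ W = ⊤ := by
  classical
  intro W hW
  by_contra hcon
  push Not at hcon
  obtain ⟨hbot, htop⟩ := hcon
  have hp : p.Prime := Fact.out
  haveI : Module.Finite (ZMod p) V₀ := Module.finite_of_finrank_eq_succ h2
  haveI : Module.Finite k Vk := Module.finite_of_finrank_eq_succ hk2
  have hK2 : Module.finrank K (K ⊗[k] Vk) = 2 := by rw [Module.finrank_baseChange, hk2]
  -- a spanning vector of `W`
  have hW1 : Module.finrank K W = 1 := by
    have h1 : Module.finrank K W < 2 := hK2 ▸ Submodule.finrank_lt htop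
    have h0 : Module.finrank K W ≠ 0 := fun h => hbot (Submodule.finrank_eq_zero.1 h)
    omega
  obtain ⟨w, hwW, hw⟩ := Submodule.exists_mem_ne_zero_of_ne_bot hbot
  have hWspan : Submodule.span K {w} = W := by
    refine Submodule.eq_of_le_of_finrank_eq ?_ ?_
    · rw [Submodule.span_le, Set.singleton_subset_iff]
      exact hwW
    · rw [hW1, finrank_span_singleton hw]
  have heig : ∀ σ : G, ∃ a : K, (R σ).baseChange K w = a • w := by
    intro σ
    have hmem : (R σ).baseChange K w ∈ Submodule.span K {w} := by
      rw [hWspan]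
      exact hW σ w hwW
    obtain ⟨a, ha⟩ := Submodule.mem_span_singleton.1 hmem
    exact ⟨a, ha.symm⟩
  -- the baseChange is multiplicative
  have hmulK : ∀ σ τ : G, (R (σ * τ)).baseChange K = (R σ).baseChange K ∘ₗ (R τ).baseChange K := by
    intro σ τ
    rw [map_mul, Module.End.mul_eq_comp, LinearMap.baseChange_comp]
  have honeK : (R 1).baseChange K = LinearMap.id := by
    rw [map_one, Module.End.one_eq_id, LinearMap.baseChange_id]
  have hinj : Function.Injective (algebraMap k K) := (algebraMap k K).injective
  have hinjp : Function.Injective (algebraMap (ZMod p) k) := (algebraMap (ZMod p) k).injective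
  have hdetmul : ∀ σ τ : G, LinearMap.det (R (σ * τ)) = LinearMap.det (R σ) * LinearMap.det (R τ) :=
    fun σ τ => by rw [map_mul, map_mul]
  -- the subgroup `H`
  let H : Subgroup G :=
    { carrier := {σ | (R σ).baseChange K w = w ∧ LinearMap.det (R σ) = 1}
      mul_mem' := by
        rintro σ τ ⟨h1, h2'⟩ ⟨h3, h4⟩
        refine ⟨?_, ?_⟩
        · rw [hmulK, LinearMap.comp_apply, h3, h1]
        · rw [hdetmul, h2', h4, one_mul]
      one_mem' := ⟨by rw [honeK, LinearMap.id_apply], by rw [map_one, map_one]⟩
      inv_mem' := by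
        rintro σ ⟨h1, h2'⟩
        refine ⟨?_, ?_⟩
        · have : (R (σ⁻¹ * σ)).baseChange K w = w := by
            rw [inv_mul_cancel, honeK, LinearMap.id_apply]
          rw [hmulK, LinearMap.comp_apply, h1] at this
          exact this
        · have : LinearMap.det (R (σ⁻¹ * σ)) = 1 := by rw [inv_mul_cancel, map_one, map_one]
          rw [hdetmul, h2', mul_one] at this
          exact this }
  have hHmem : ∀ σ : G, σ ∈ H ↔ (R σ).baseChange K w = w ∧ LinearMap.det (R σ) = 1 :=
    fun σ => Iff.rfl
  -- conjugation and commutators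
  have hconj : ∀ g σ : G, σ ∈ H → g * σ * g⁻¹ ∈ H := by
    intro g σ hσ
    obtain ⟨h1, h2'⟩ := (hHmem σ).1 hσ
    obtain ⟨a, ha⟩ := heig g⁻¹
    refine (hHmem _).2 ⟨?_, ?_⟩
    · rw [hmulK, hmulK, LinearMap.comp_apply, LinearMap.comp_apply, ha, map_smul, h1, ← ha,
        ← LinearMap.comp_apply, ← hmulK, mul_inv_cancel, honeK, LinearMap.id_apply]
    · rw [hdetmul, hdetmul, h2', mul_one, ← hdetmul, mul_inv_cancel, map_one, map_one]
  have hcommH : ∀ g h : G, g * h * g⁻¹ * h⁻¹ ∈ H := by
    intro g h
    obtain ⟨a, ha⟩ := heig g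
    obtain ⟨b, hb⟩ := heig h
    obtain ⟨a', ha'⟩ := heig g⁻¹
    obtain ⟨b', hb'⟩ := heig h⁻¹
    have haa' : a * a' = 1 := by
      have : (R (g * g⁻¹)).baseChange K w = w := by
        rw [mul_inv_cancel, honeK, LinearMap.id_apply]
      rw [hmulK, LinearMap.comp_apply, ha', map_smul, ha, smul_smul] at this
      have h1 : (a' * a) • w = (1 : K) • w := by rw [this, one_smul]
      rw [mul_comm]
      exact smul_left_injective K hw h1
    have hbb' : b * b' = 1 := by
      have : (R (h * h⁻¹)).baseChange K w = w := by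
        rw [mul_inv_cancel, honeK, LinearMap.id_apply]
      rw [hmulK, LinearMap.comp_apply, hb', map_smul, hb, smul_smul] at this
      have h1 : (b' * b) • w = (1 : K) • w := by rw [this, one_smul]
      rw [mul_comm]
      exact smul_left_injective K hw h1
    refine (hHmem _).2 ⟨?_, ?_⟩
    · have e : (R (g * h * g⁻¹ * h⁻¹)).baseChange K w = (a * a' * (b * b')) • w := by
        simp only [hmulK, LinearMap.comp_apply, hb', ha', hb, ha, map_smul, smul_smul]
        congr 1
        ring
      rw [e, haa', hbb', one_mul, one_smul]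
    · rw [hdetmul, hdetmul, hdetmul]
      have e1 : LinearMap.det (R g) * LinearMap.det (R g⁻¹) = 1 := by
        rw [← hdetmul, mul_inv_cancel, map_one, map_one]
      have e2 : LinearMap.det (R h) * LinearMap.det (R h⁻¹) = 1 := by
        rw [← hdetmul, mul_inv_cancel, map_one, map_one]
      calc LinearMap.det (R g) * LinearMap.det (R h) * LinearMap.det (R g⁻¹) *
            LinearMap.det (R h⁻¹)
          = (LinearMap.det (R g) * LinearMap.det (R g⁻¹)) *
              (LinearMap.det (R h) * LinearMap.det (R h⁻¹)) := by ring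
        _ = 1 := by rw [e1, e2, one_mul]
  -- on `H`, `(A σ - 1)² = 0`
  have hunipH : ∀ σ ∈ H, (A σ - 1) * (A σ - 1) = 0 := by
    intro σ hσ
    obtain ⟨h1, h2'⟩ := (hHmem σ).1 hσ
    obtain ⟨b, e, hb, he, hrel⟩ := hcmp σ
    have hq := eigen_quadratic hK2 ((R σ).baseChange K) hw (a := 1) (by rw [one_smul, h1])
    rw [LinearMap.trace_baseChange, LinearMap.det_baseChange, h2', map_one] at hq
    have htr : LinearMap.trace k Vk (R σ) = 2 := by
      apply hinj
      rw [map_ofNat]
      linear_combination -hq
    have hb2 : b = 2 := by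
      apply hinjp
      rw [hb, htr, map_ofNat]
    have he1 : e = 1 := by
      apply hinjp
      rw [he, h2', map_one]
    rw [hb2, he1, one_smul] at hrel
    have : (A σ - 1) * (A σ - 1) = A σ * A σ - (2 : ZMod p) • A σ + 1 := by
      rw [two_smul]
      noncomm_ring
    rw [this, hrel]
  -- Kolchin: `H` acts trivially on `V₀`
  let b₀ := Module.finBasisOfFinrankEq (ZMod p) V₀ h2
  obtain ⟨v, hv0, hvfix⟩ := Fermat.Agent.S36.Kolchin.exists_common_fixed b₀ A H
    (fun s hs => charpoly_of_sub_one_sq h2 (A s) (hunipH s hs))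
  let Nfix : Submodule (ZMod p) V₀ :=
    { carrier := {x | ∀ σ ∈ H, A σ x = x}
      add_mem' := fun {x y} hx hy σ hσ => by rw [map_add, hx σ hσ, hy σ hσ]
      zero_mem' := fun σ _ => map_zero _
      smul_mem' := fun a x hx σ hσ => by rw [map_smul, hx σ hσ] }
  have hNfix_st : ∀ g : G, ∀ x ∈ Nfix, A g x ∈ Nfix := by
    intro g x hx σ hσ
    have h1 : g⁻¹ * σ * g⁻¹⁻¹ ∈ H := hconj g⁻¹ σ hσ
    rw [inv_inv] at h1
    have h3 := hx _ h1
    have : A σ (A g x) = A g (A (g⁻¹ * σ * g) x) := by
      rw [← Module.End.mul_apply, ← Module.End.mul_apply, ← map_mul, ← map_mul]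
      congr 2
      group
    rw [this, h3]
  have hNtop : Nfix = ⊤ := by
    rcases hirr Nfix hNfix_st with h | h
    · exact absurd (h ▸ (show v ∈ Nfix from hvfix) : v ∈ (⊥ : Submodule (ZMod p) V₀))
        (by rw [Submodule.mem_bot]; exact hv0)
    · exact h
  have hHtriv : ∀ σ ∈ H, A σ = 1 := by
    intro σ hσ
    ext x
    have : x ∈ Nfix := hNtop ▸ Submodule.mem_top
    exact this σ hσ
  -- `A(G)` is commutative
  have hAcomm : ∀ g h : G, A g * A h = A h * A g := by
    intro g h
    have h1 := hHtriv _ (hcommH g h)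
    have : A g * A h = A (g * h * g⁻¹ * h⁻¹) * (A h * A g) := by
      rw [← map_mul, ← map_mul, ← map_mul]
      congr 1
      group
    rw [this, h1, one_mul]
  -- `A c = ± 1`
  have hAc2 : A c * A c = 1 := by rw [← map_mul, hc, map_one]
  have h2ne : (2 : ZMod p) ≠ 0 := two_ne_zero_zmod hp2
  let Np : Submodule (ZMod p) V₀ := LinearMap.ker (A c - 1)
  let Nm : Submodule (ZMod p) V₀ := LinearMap.ker (A c + 1)
  have hNp_st : ∀ g : G, ∀ x ∈ Np, A g x ∈ Np := by
    intro g x hx
    rw [LinearMap.mem_ker, LinearMap.sub_apply, Module.End.one_apply, sub_eq_zero] at hx ⊢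
    rw [← Module.End.mul_apply, ← hAcomm g c, Module.End.mul_apply, hx]
  have hNm_st : ∀ g : G, ∀ x ∈ Nm, A g x ∈ Nm := by
    intro g x hx
    rw [LinearMap.mem_ker, LinearMap.add_apply, Module.End.one_apply] at hx ⊢
    rw [← Module.End.mul_apply, ← hAcomm g c, Module.End.mul_apply, ← map_add, hx, map_zero]
  have hAc : A c = 1 ∨ A c = -1 := by
    rcases hirr Np hNp_st with hNp | hNp
    · rcases hirr Nm hNm_st with hNm | hNm
      · -- both trivial: impossible
        exfalso
        haveI : Nontrivial V₀ :=
          Module.nontrivial_of_finrank_pos (R := ZMod p) (by rw [h2]; norm_num)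
        obtain ⟨x, hx⟩ := exists_ne (0 : V₀)
        have h1 : x + A c x ∈ Np := by
          rw [LinearMap.mem_ker, LinearMap.sub_apply, Module.End.one_apply, map_add,
            ← Module.End.mul_apply, hAc2, Module.End.one_apply]
          abel
        have h3 : x - A c x ∈ Nm := by
          rw [LinearMap.mem_ker, LinearMap.add_apply, Module.End.one_apply, map_sub,
            ← Module.End.mul_apply, hAc2, Module.End.one_apply]
          abel
        rw [hNp, Submodule.mem_bot] at h1
        rw [hNm, Submodule.mem_bot] at h3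
        have : (2 : ZMod p) • x = 0 := by
          rw [two_smul]
          have := congrArg₂ (· + ·) h1 h3
          simp only [add_zero] at this
          rw [← this]
          abel
        exact hx ((smul_eq_zero.1 this).resolve_left h2ne)
      · right
        ext x
        have : x ∈ Nm := hNm ▸ Submodule.mem_top
        rw [LinearMap.mem_ker, LinearMap.add_apply, Module.End.one_apply] at this
        rw [LinearMap.neg_apply, Module.End.one_apply]
        exact eq_neg_of_add_eq_zero_left this
    · left
      ext x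
      have : x ∈ Np := hNp ▸ Submodule.mem_top
      rw [LinearMap.mem_ker, LinearMap.sub_apply, Module.End.one_apply, sub_eq_zero] at this
      rw [Module.End.one_apply]
      exact this
  -- every `A σ` is a scalar
  apply not_all_scalar h2 A hirr
  intro σ
  obtain ⟨b, e, hb, he, hrel⟩ := hcmp σ
  obtain ⟨b', e', hb', he', hrel'⟩ := hcmp (σ * c)
  have he'e : e' = -e := by
    apply hinjp
    rw [he', hdetmul, hdet, mul_neg_one, map_neg, he]
  have he0 : e ≠ 0 := by
    intro h0
    have hd0 : LinearMap.det (R σ) = 0 := by rw [← he, h0, map_zero]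
    have : LinearMap.det (R (σ * σ⁻¹)) = 1 := by rw [mul_inv_cancel, map_one, map_one]
    rw [hdetmul, hd0, zero_mul] at this
    exact zero_ne_one this
  -- `A (σ c) = ε A σ`
  have key : ∀ ε : ZMod p, ε * ε = 1 → A c = ε • (1 : Module.End (ZMod p) V₀) →
      ∃ a : ZMod p, A σ = a • (1 : Module.End (ZMod p) V₀) := by
    intro ε hε hAcε
    have hAσc : A (σ * c) = ε • A σ := by
      rw [map_mul, hAcε, mul_smul_comm, mul_one]
    rw [hAσc, he'e] at hrel'
    have h1 : A σ * A σ - (ε * b') • A σ - e • (1 : Module.End (ZMod p) V₀) = 0 := by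
      have : ε • A σ * ε • A σ = (ε * ε) • (A σ * A σ) := by
        rw [smul_mul_smul_comm]
      rw [this, hε, one_smul, smul_smul, neg_smul] at hrel'
      rw [mul_comm ε b']
      rw [← hrel']
      abel
    have h3 : (ε * b' - b) • A σ + (2 * e) • (1 : Module.End (ZMod p) V₀) = 0 := by
      have : (ε * b' - b) • A σ + (2 * e) • (1 : Module.End (ZMod p) V₀) =
          (A σ * A σ - b • A σ + e • (1 : Module.End (ZMod p) V₀)) -
          (A σ * A σ - (ε * b') • A σ - e • (1 : Module.End (ZMod p) V₀)) := by
        module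
      rw [this, hrel, h1, sub_zero]
    have hne : ε * b' - b ≠ 0 := by
      intro h0
      rw [h0, zero_smul, zero_add] at h3
      haveI : Nontrivial V₀ :=
        Module.nontrivial_of_finrank_pos (R := ZMod p) (by rw [h2]; norm_num)
      obtain ⟨x, hx⟩ := exists_ne (0 : V₀)
      have := congrArg (fun g : Module.End (ZMod p) V₀ => g x) h3
      simp only [LinearMap.smul_apply, Module.End.one_apply, LinearMap.zero_apply] at this
      exact hx ((smul_eq_zero.1 this).resolve_left (mul_ne_zero h2ne he0))
    refine ⟨-(2 * e) / (ε * b' - b), ?_⟩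
    have h4 : (ε * b' - b) • A σ = (-(2 * e)) • (1 : Module.End (ZMod p) V₀) := by
      rw [neg_smul]
      exact eq_neg_of_add_eq_zero_left h3
    have := congrArg (fun g : Module.End (ZMod p) V₀ => (ε * b' - b)⁻¹ • g) h4
    simp only [smul_smul] at this
    rw [inv_mul_cancel₀ hne, one_smul] at this
    rw [this, div_eq_inv_mul]
  rcases hAc with h | h
  · exact key 1 (one_mul 1) (by rw [h, one_smul])
  · exact key (-1) (by ring) (by rw [h, neg_smul, one_smul])

end Main

end Fermat.Agent.S58.AbsIrr
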