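import Mathlib

/-!
# An involution of an algebraically closed field moves every odd-order root of unity

`Fermat.Agent.S58.InvolutionOdd.ne_of_involution`: `C` algebraically closed, `2 ≠ 0`,
`c : C ≃+* C` with `c ∘ c = id`, `c ≠ id`; `ζ ^ n = 1`, `ζ ≠ 1`, `n` odd  ⟹  `c ζ ≠ ζ`.
(The elementary half of Artin–Schreier: the fixed field of `c` is formally real.)
-/

set_option autoImplicit false

namespace Fermat.Agent.S58.InvolutionOdd

variable {C : Type*} [Field C] [IsAlgClosed C]

section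

variable (c : C ≃+* C) (hcc : ∀ x, c (c x) = x)

include hcc

/-- Step 1: `c` moves the square roots of `-1`. -/
theorem map_I_ne (h2 : (2 : C) ≠ 0) (hne : ∃ x, c x ≠ x) {i : C} (hi : i * i = -1) : c i ≠ i := by
  intro hci
  obtain ⟨x, hx⟩ := hne
  set s := x - c x with hs
  have hs0 : s ≠ 0 := fun h => hx (sub_eq_zero.mp h).symm
  have hcs : c s = -s := by rw [hs, map_sub, hcc]; ring
  obtain ⟨w, hw⟩ := IsAlgClosed.exists_eq_mul_self s
  have hw0 : w ≠ 0 := by rintro rfl; exact hs0 (by rw [hw]; ring)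
  have h1 : c w * c w = (i * w) * (i * w) := by
    rw [← map_mul, ← hw, hcs, hw]
    calc -(w * w) = (i * i) * (w * w) := by rw [hi]; ring
      _ = _ := by ring
  have h2' : c w = i * w ∨ c w = -(i * w) := mul_self_eq_mul_self_iff.mp h1
  have h3 : c (c w) = -w := by
    rcases h2' with h | h
    · rw [h, map_mul, hci, h]
      calc i * (i * w) = (i * i) * w := by ring
        _ = -w := by rw [hi]; ring
    · rw [h, map_neg, map_mul, hci, h]
      calc -(i * -(i * w)) = (i * i) * w := by ring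
        _ = -w := by rw [hi]; ring
  rw [hcc] at h3
  have : (2 : C) * w = 0 := by
    calc (2 : C) * w = w + w := by ring
      _ = w + -w := by rw [← h3]
      _ = 0 := by ring
  rcases mul_eq_zero.mp this with h | h
  · exact h2 h
  · exact hw0 h

/-- Step 2: a sum of two squares of fixed elements is the square of a fixed element. -/
theorem exists_sq_add_sq (h2 : (2 : C) ≠ 0) (hne : ∃ x, c x ≠ x) {a b : C} (ha : c a = a)
    (hb : c b = b) : ∃ r, c r = r ∧ a * a + b * b = r * r := by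
  obtain ⟨i, hi⟩ := IsAlgClosed.exists_eq_mul_self (-1 : C)
  have hi' : i * i = -1 := hi.symm
  have hci : c i = -i := by
    have h1 : c i * c i = i * i := by rw [← map_mul, hi', map_neg, map_one]
    rcases mul_self_eq_mul_self_iff.mp h1 with h | h
    · exact absurd h (map_I_ne c hcc h2 hne hi')
    · exact h
  obtain ⟨z, hz⟩ := IsAlgClosed.exists_eq_mul_self (a + b * i)
  refine ⟨z * c z, by rw [map_mul, hcc, mul_comm], ?_⟩
  have : z * c z * (z * c z) = (z * z) * c (z * z) := by rw [map_mul]; ring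
  rw [this, ← hz, map_add, map_mul, ha, hb, hci]
  calc a * a + b * b = a * a - b * b * (i * i) := by rw [hi']; ring
    _ = _ := by ring

/-- Step 3: a finite sum of squares of fixed elements is the square of a fixed element. -/
theorem exists_sum_sq (h2 : (2 : C) ≠ 0) (hne : ∃ x, c x ≠ x) {ι : Type*} (s : Finset ι)
    (a : ι → C) (ha : ∀ k ∈ s, c (a k) = a k) :
    ∃ r, c r = r ∧ ∑ k ∈ s, a k * a k = r * r := by
  classical
  induction s using Finset.induction_on with
  | empty => exact ⟨0, map_zero c, by simp⟩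
  | insert k s hk ih =>
    obtain ⟨r, hr, hsum⟩ := ih (fun j hj => ha j (Finset.mem_insert_of_mem hj))
    obtain ⟨r', hr', h'⟩ := exists_sq_add_sq c hcc h2 hne (ha k (Finset.mem_insert_self k s)) hr
    exact ⟨r', hr', by rw [Finset.sum_insert hk, hsum, h']⟩

/-- The fixed field is formally real: `1 + ∑ a_k ^ 2 ≠ 0`. -/
theorem one_add_sum_sq_ne_zero (h2 : (2 : C) ≠ 0) (hne : ∃ x, c x ≠ x) {ι : Type*}
    (s : Finset ι) (a : ι → C) (ha : ∀ k ∈ s, c (a k) = a k) :
    1 + ∑ k ∈ s, a k * a k ≠ 0 := by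
  intro h
  obtain ⟨r, hr, hsum⟩ := exists_sum_sq c hcc h2 hne s a ha
  rw [hsum] at h
  have hi : r * r = -1 := by
    calc r * r = (1 + r * r) - 1 := by ring
      _ = -1 := by rw [h]; ring
  exact map_I_ne c hcc h2 hne hi hr

/-- **An involution `c ≠ id` of an algebraically closed field fixes no root of unity `≠ 1` of odd
order.** -/
theorem ne_of_involution (h2 : (2 : C) ≠ 0) (hne : ∃ x, c x ≠ x) {n : ℕ} (hn : Odd n) {ζ : C}
    (hζ : ζ ^ n = 1) (hζ1 : ζ ≠ 1) : c ζ ≠ ζ := by
  intro hcζ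
  obtain ⟨m, rfl⟩ := hn
  -- `η := ζ ^ (m + 1)` is a fixed square root of `ζ`
  set η := ζ ^ (m + 1) with hη
  have hcη : c η = η := by rw [hη, map_pow, hcζ]
  have hηη : η * η = ζ := by
    rw [hη, ← pow_add]
    calc ζ ^ (m + 1 + (m + 1)) = ζ ^ (2 * m + 1) * ζ := by ring
      _ = ζ := by rw [hζ, one_mul]
  -- the geometric sum vanishes
  have hgeom : ∑ k ∈ Finset.range (2 * m + 1), ζ ^ k = 0 := by
    have h := geom_sum_mul ζ (2 * m + 1)
    rw [hζ, sub_self] at h
    rcases mul_eq_zero.mp h with h | h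
    · exact h
    · exact absurd (sub_eq_zero.mp h) hζ1
  rw [Finset.sum_range_succ'] at hgeom
  simp only [pow_zero] at hgeom
  refine one_add_sum_sq_ne_zero c hcc h2 hne (Finset.range (2 * m)) (fun k => η ^ (k + 1))
    (fun k _ => by rw [map_pow, hcη]) ?_
  rw [add_comm]
  convert hgeom using 2
  refine Finset.sum_congr rfl fun k _ => ?_
  rw [← mul_pow, hηη]

end

/-- The same for `ℚ`-algebra automorphisms of `AlgebraicClosure ℚ`, in the shape of
`ResidualGaloisRep.IsOdd`. -/
theorem ne_of_involution_qbar (c : AlgebraicClosure ℚ ≃ₐ[ℚ] AlgebraicClosure ℚ) (hc : c * c = 1)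
    (hc1 : c ≠ 1) {n : ℕ} (hn : Odd n) {ζ : AlgebraicClosure ℚ} (hζ : ζ ^ n = 1) (hζ1 : ζ ≠ 1) :
    c ζ ≠ ζ := by
  have hcc : ∀ x, (c : AlgebraicClosure ℚ ≃+* AlgebraicClosure ℚ) ((c : AlgebraicClosure ℚ ≃+*
      AlgebraicClosure ℚ) x) = x := fun x => by
    have := DFunLike.congr_fun hc x
    simpa using this
  have hne : ∃ x, (c : AlgebraicClosure ℚ ≃+* AlgebraicClosure ℚ) x ≠ x := by
    by_contra h
    have h' : ∀ x, (c : AlgebraicClosure ℚ ≃+* AlgebraicClosure ℚ) x = x :=
      fun x => by_contra fun hx => h ⟨x, hx⟩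
    exact hc1 (AlgEquiv.ext fun x => by simpa using h' x)
  exact ne_of_involution (c : AlgebraicClosure ℚ ≃+* AlgebraicClosure ℚ) hcc two_ne_zero hne hn hζ
    hζ1

end Fermat.Agent.S58.InvolutionOdd

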