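import Mathlib
import Fermat.Prelude.Def_EllipticCurve_FrobeniusTrace
import Fermat.Prelude.Def_FLTPrelim_Modularity
import Fermat.Prelude.Def_FLTPrelim_Ramification
import Fermat.Agent.S30.Padic.TateModule
import Fermat.Agent.S30.Residual.FreyAttach
import Fermat.Agent.S31.Core
import Fermat.Agent.S34.UnipCore
import Fermat.Agent.S35.DetCyc

/-!
# S58 (sandbox, helper19): the elliptic-curve side as a Hecke-Galois module

`W` a Weierstrass curve over `ℤ`, `E := W ⊗ ℚ`.  The whole elliptic-curve input of S58 is the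
structure `Hyp W` below: QUADRATIC RELATIONS on the abelian group `E(ℚ̄)` (no trace, no determinant,
no Weil pairing):

* `card`  : `#E[m] = m²` (on main: `S13/CU/FreyInputs.torsionCard_rat`);
* `frob`  : for a good prime `ℓ`, `m` prime to `ℓ` and a Frobenius lift `τ` at `ℓ`:
  `τ² P - a_ℓ(W) τ P + ℓ P = 0` on `E[m]`   (Hasse-Weil, annihilation form);
* `good`  : inertia at a good prime `q` acts trivially on `E[m]`, `(m, q) = 1`;
* `mult`  : inertia at a bad prime `q` satisfies `(σ - 1)² = 0` on `E[m]`, `(m, q) = 1`.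

From `Hyp W` the Tate module `Tp p E(ℚ̄)` (generic construction of S30) with `𝕋 := ℤ`,
`T_ℓ := a_ℓ(W)` is a Hecke-Galois module in the sense of `S31/Core.lean` (`heckeModule`), so the
abstract cores of S31 / S34 apply to every `ρ` with Frobenius characteristic polynomials
`X² - a_ℓ(W) X + ℓ`:

* `trace_eq_of_quadratic` : (abstract, any Hecke-Galois module) `σ² - a σ + ε(σ) = 0` on `Λ`
  implies `tr ρ(σ) = π a`;
* `trace_frobenius_eq`    : `tr ρ(σ_q) = a_q(W)` at a Frobenius lift at ANY good prime `q ≠ p`;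
* `isUnipotentOnInertiaAt`: `ρ` is unipotent on inertia at EVERY prime `q ≠ p`.
-/

set_option autoImplicit false
set_option linter.unusedSectionVars false
set_option linter.style.haveILetI false

noncomputable section

namespace Fermat.Agent.S58.TateE

open Polynomial IsLocalRing
open scoped WeierstrassCurve.Affine
open Fermat.Agent.S30.Padic.TateModule
open Fermat.Agent.S31.Core
open Fermat.Agent.S30.Algebra.DetGalois (Density inv_mul_apply_eq)
open Fermat.Agent.S30.Algebra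

local notation "Qb" => AlgebraicClosure ℚ
local notation "GQ" => (AlgebraicClosure ℚ ≃ₐ[ℚ] AlgebraicClosure ℚ)

/-- `E = W ⊗ ℚ` -/
abbrev WQ (W : WeierstrassCurve ℤ) : WeierstrassCurve ℚ := W.map (Int.castRingHom ℚ)

/-- `E(ℚ̄)` -/
abbrev Pts (W : WeierstrassCurve ℤ) : Type := ((WQ W)⁄Qb).Point

/-- **The elliptic-curve side of S58.** -/
structure Hyp (W : WeierstrassCurve ℤ) : Prop where
  card : ∀ m : ℕ, 0 < m → Nat.card (Submodule.torsionBy ℤ (Pts W) m) = m ^ 2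
  frob : ∀ ℓ : ℕ, ℓ.Prime → W.IsGoodPrimeFor ℓ → ∀ A : ValuationSubring Qb, A.LiesOverPrime ℓ →
    ∀ τ : GQ, A.IsFrobeniusAt τ ℓ → ∀ m : ℕ, m.Coprime ℓ → ∀ P : Pts W, m • P = 0 →
      τ • τ • P - W.apOfModel ℓ • τ • P + ℓ • P = 0
  good : ∀ q : ℕ, q.Prime → W.IsGoodPrimeFor q → ∀ A : ValuationSubring Qb, A.LiesOverPrime q →
    ∀ σ ∈ A.inertiaSubgroupIn ℚ, ∀ m : ℕ, m.Coprime q → ∀ P : Pts W, m • P = 0 → σ • P = P
  mult : ∀ q : ℕ, q.Prime → (q : ℤ) ∣ W.Δ → ∀ A : ValuationSubring Qb, A.LiesOverPrime q →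
    ∀ σ ∈ A.inertiaSubgroupIn ℚ, ∀ m : ℕ, m.Coprime q → ∀ P : Pts W, m • P = 0 →
      σ • σ • P + P = 2 • σ • P

/-! ### An abstract trace lemma for Hecke-Galois modules -/

section Abstract

variable {T : Type} [CommRing T] [IsLocalRing T]
variable {𝕋 : Type*} [CommRing 𝕋]
variable {R₀ : Type*} [CommRing R₀] {Λ : Type*} [AddCommGroup Λ] [Module R₀ Λ]
variable {Sg : Finset ℕ} {I₀ : Ideal R₀} {Tl : ℕ → 𝕋} {r : GQ →* Module.End R₀ Λ}
  {ε : GQ →* R₀} {θ : 𝕋 →+* Module.End R₀ Λ}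

/-- **Trace from a quadratic relation.**  If `σ² - a σ + ε(σ) = 0` on the Hecke-Galois module `Λ`
for some Hecke element `a`, then `tr ρ(σ) = π a`. -/
theorem trace_eq_of_quadratic (hM : HeckeModule Sg I₀ Tl r ε θ) (ρ : GaloisRepAdic T) (π : 𝕋 →+* T)
    (hcp : FrobCharpolyVia ρ Sg Tl π) (hdens : Density Sg)
    (hsep : ∀ x : T, (∀ n, x ∈ maximalIdeal T ^ n) → x = 0)
    (hinj : ∀ n : ℕ, ∃ n' : ℕ, ∀ t : 𝕋,
      (∀ v : Λ, θ t v ∈ (I₀ ^ n') • (⊤ : Submodule R₀ Λ)) → π t ∈ maximalIdeal T ^ n)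
    (σ : GQ) (a : 𝕋) (hσ : r σ * r σ - θ a * r σ + ε σ • (1 : Module.End R₀ Λ) = 0) :
    LinearMap.trace T ρ.V (ρ.ρ σ) = π a := by
  rw [← sub_eq_zero]
  refine hsep _ fun n => ?_
  obtain ⟨n', hn'⟩ := hinj n
  obtain ⟨b, hb1, hb2⟩ := exists_approx hM ρ π hcp hdens σ (max n n')
  have hS := isTwoSided_smallEnd (V := Λ) (I₀ ^ max n n')
  have h1 : θ (a - b) * r σ ∈ (smallEnd (V := Λ) (I₀ ^ max n n')).toAddSubgroup := by
    have : θ (a - b) * r σ = (r σ * r σ - θ b * r σ + ε σ • (1 : Module.End R₀ Λ)) -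
        (r σ * r σ - θ a * r σ + ε σ • (1 : Module.End R₀ Λ)) := by
      rw [map_sub, sub_mul]
      abel
    rw [this, hσ, sub_zero]
    exact hb1
  have h2 : θ (a - b) ∈ smallEnd (V := Λ) (I₀ ^ max n n') := by
    have : θ (a - b) = θ (a - b) * r σ * r σ⁻¹ := by
      rw [mul_assoc, ← map_mul, mul_inv_cancel, map_one, mul_one]
    rw [this]
    exact hS.mul_right _ h1
  have h3 : π (a - b) ∈ maximalIdeal T ^ n :=
    hn' _ fun v => smallEnd_mono (Ideal.pow_le_pow_right (le_max_right n n')) h2 v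
  have hle : maximalIdeal T ^ max n n' ≤ maximalIdeal T ^ n :=
    Ideal.pow_le_pow_right (le_max_left n n')
  have : LinearMap.trace T ρ.V (ρ.ρ σ) - π a =
      (LinearMap.trace T ρ.V (ρ.ρ σ) - π b) - π (a - b) := by
    rw [map_sub]
    ring
  rw [this]
  exact Ideal.sub_mem _ (hle hb2) h3

end Abstract

/-! ### The Tate module of `E` as a Hecke-Galois module -/

section Tate

variable (W : WeierstrassCurve ℤ) (p : ℕ) [Fact p.Prime]

/-- the Galois action on `T_p E` -/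
def rT : GQ →* Module.End ℤ_[p] (Tp p (Pts W)) :=
  Tp.galoisHom (p := p) (J := Pts W) GQ

/-- the "Hecke action" of `𝕋 := ℤ` on `T_p E` -/
def thetaZ : ℤ →+* Module.End ℤ_[p] (Tp p (Pts W)) :=
  Int.castRingHom _

/-- `T_ℓ := a_ℓ(W)` -/
def Tl : ℕ → ℤ := fun ℓ => W.apOfModel ℓ

variable {W}

theorem thetaZ_apply (t : ℤ) (x : Tp p (Pts W)) (k : ℕ) :
    (thetaZ W p t x).1 k = t • x.1 k := by
  change (((t : Module.End ℤ_[p] (Tp p (Pts W)))) x).1 k = _
  rw [Module.End.intCast_apply]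
  rfl

theorem finite_torsion (H : Hyp W) {m : ℕ} (hm : 0 < m) :
    Finite (Submodule.torsionBy ℤ (Pts W) m) :=
  Nat.finite_of_card_ne_zero (by rw [H.card m hm]; exact (pow_pos hm 2).ne')

/-- adic continuity of the Galois action on `T_p E` -/
theorem cont (H : Hyp W) (n : ℕ) :
    ∃ L : IntermediateField ℚ Qb, FiniteDimensional ℚ L ∧
      ∀ u : GQ, (∀ x ∈ L, u x = x) → ∀ v : Tp p (Pts W),
        rT W p u v - v ∈
          (Ideal.span {(p : ℤ_[p])} ^ n) • (⊤ : Submodule ℤ_[p] (Tp p (Pts W))) := by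
  have hp : p.Prime := Fact.out
  haveI := finite_torsion H (pow_pos hp.pos n)
  obtain ⟨L, hL, h⟩ :=
    Fermat.Agent.S30.Residual.FreyAttach.factorsThroughFiniteLevel_of_finite (WQ W) (p ^ n)
  refine ⟨L, hL, fun u hu v => ?_⟩
  have hfix : ∀ y : Pts W, p ^ n • y = 0 → u • y = y := by
    intro y hy
    have hmem : y ∈ Submodule.torsionBy ℤ (Pts W) (p ^ n : ℕ) := by
      rw [Submodule.mem_torsionBy_iff]
      rw [← hy]
      push_cast
      rw [← natCast_zsmul]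
      push_cast
      rfl
    have := congrArg (fun f => f ⟨y, hmem⟩) (h u hu)
    exact congrArg Subtype.val this
  obtain ⟨y, hy⟩ := Tp.exists_galoisHom_sub_eq_pow_smul (p := p) u n hfix v
  change Tp.galoisHom (p := p) (J := Pts W) GQ u v - v ∈ _
  rw [hy, Ideal.span_singleton_pow, Submodule.ideal_span_singleton_smul]
  exact Submodule.smul_mem_pointwise_smul y _ ⊤ Submodule.mem_top

theorem comm (ℓ : ℕ) (g : GQ) : Commute (thetaZ W p (Tl W ℓ)) (rT W p g) := by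
  change Commute ((Tl W ℓ : ℤ) : Module.End ℤ_[p] (Tp p (Pts W))) _
  exact Int.cast_commute _ _

/-- the bad set: `p` and the primes of bad reduction -/
def badSet (W : WeierstrassCurve ℤ) (p : ℕ) : Finset ℕ :=
  insert p W.Δ.natAbs.primeFactors

theorem mem_badSet_self : p ∈ badSet W p := Finset.mem_insert_self _ _

theorem good_of_not_mem_badSet (hΔ : W.Δ ≠ 0) {ℓ : ℕ} (hℓ : ℓ.Prime) (h : ℓ ∉ badSet W p) :
    W.IsGoodPrimeFor ℓ ∧ ℓ ≠ p := by
  refine ⟨fun hd => h ?_, fun hp => h (hp ▸ Finset.mem_insert_self _ _)⟩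
  refine Finset.mem_insert_of_mem ?_
  rw [Nat.mem_primeFactors]
  exact ⟨hℓ, Int.natCast_dvd.mp hd, Int.natAbs_ne_zero.mpr hΔ⟩

/-- Eichler-Shimura on `T_p E` at a good prime `ℓ ≠ p` -/
theorem es_of_good (H : Hyp W) {ℓ : ℕ} (hℓ : ℓ.Prime) (hgood : W.IsGoodPrimeFor ℓ) (hℓp : ℓ ≠ p)
    (A : ValuationSubring Qb) (hA : A.LiesOverPrime ℓ) (τ : GQ) (hτ : A.IsFrobeniusAt τ ℓ) :
    rT W p τ * rT W p τ - thetaZ W p (Tl W ℓ) * rT W p τ
      + ((ℓ : ℕ) : Module.End ℤ_[p] (Tp p (Pts W))) = 0 := by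
  have hp : p.Prime := Fact.out
  ext x k
  have hcop : (p ^ k).Coprime ℓ :=
    Nat.Coprime.pow_left k ((Nat.coprime_primes hp hℓ).mpr (Ne.symm hℓp))
  have e := H.frob ℓ hℓ hgood A hA τ hτ (p ^ k) hcop (x.1 k) (Tp.pow_smul_apply x k)
  rw [LinearMap.add_apply, LinearMap.sub_apply, Module.End.mul_apply, Module.End.mul_apply,
    LinearMap.zero_apply, Tp.coe_add_apply, Tp.coe_sub_apply, thetaZ_apply]
  have h3 : (((ℓ : ℕ) : Module.End ℤ_[p] (Tp p (Pts W))) x).1 k = ℓ • x.1 k := by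
    rw [Module.End.natCast_apply]
    rfl
  rw [h3]
  exact e

theorem es (H : Hyp W) (hΔ : W.Δ ≠ 0) :
    ∀ ℓ : ℕ, ℓ.Prime → ℓ ∉ badSet W p → ∀ A : ValuationSubring Qb, A.LiesOverPrime ℓ →
      ∀ τ : GQ, A.IsFrobeniusAt τ ℓ →
        rT W p τ * rT W p τ - thetaZ W p (Tl W ℓ) * rT W p τ
          + ((ℓ : ℕ) : Module.End ℤ_[p] (Tp p (Pts W))) = 0 := by
  intro ℓ hℓ hℓS A hA τ hτ
  obtain ⟨hg, hℓp⟩ := good_of_not_mem_badSet p hΔ hℓ hℓS
  exact es_of_good p H hℓ hg hℓp A hA τ hτ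

/-- **`T_p E` is a Hecke-Galois module** (for `𝕋 = ℤ`, `T_ℓ = a_ℓ(W)`, the cyclotomic character). -/
theorem heckeModule (H : Hyp W) (hΔ : W.Δ ≠ 0) :
    HeckeModule (badSet W p) (Ideal.span {(p : ℤ_[p])}) (Tl W) (rT W p) (eps p) (thetaZ W p) :=
  heckeModule_padic p (mem_badSet_self p) (Tl W) (rT W p) (thetaZ W p) (cont p H)
    (comm p) (es p H hΔ)

end Tate

end Fermat.Agent.S58.TateE
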