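import Mathlib
import Fermat.Agent.S30.Padic.TateModule

/-!
# S58 (sandbox, helper19): the Tate module of a group with `#J[pᵏ] = p²ᵏ` is faithful over `ℤ`

`J` an abelian group, `p` a prime, `#J[pᵏ] = p^(2k)` for all `k`.

* `exists_nsmul_eq` : the `p`-power torsion of `J` is `p`-divisible (counting: multiplication by `p`
  from `J[p^(k+1)]` to `J[pᵏ]` has kernel `J[p]`, so its image has `p^(2k)` elements);
* `exists_tp_apply_one` : every `y₀ ∈ J[p]` is the first component of an element of `Tp p J`;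
* `int_mem_span_of_smul_mem` : an integer `t` with `t • Tp p J ⊆ pⁿ Tp p J` is divisible by `pⁿ`
  (the hypothesis `hinj` of the abstract cores `S31/Core`, `S34/UnipCore` for `𝕋 = ℤ`).
-/

set_option autoImplicit false
set_option linter.unusedSectionVars false
set_option linter.style.haveILetI false

noncomputable section

namespace Fermat.Agent.S58.TateNonzero

open Fermat.Agent.S30.Padic.TateModule

variable {J : Type*} [AddCommGroup J] (p : ℕ) [hp : Fact p.Prime]

/-- `J[pᵏ]` as an additive subgroup -/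
def tors (J : Type*) [AddCommGroup J] (p k : ℕ) : AddSubgroup J :=
  (nsmulAddMonoidHom (p ^ k) : J →+ J).ker

theorem mem_tors {k : ℕ} {y : J} : y ∈ tors J p k ↔ p ^ k • y = 0 := by
  rw [tors, AddMonoidHom.mem_ker]
  rfl

/-- multiplication by `p` from `J[p^(k+1)]` to `J[pᵏ]` -/
def mulP (k : ℕ) : tors J p (k + 1) →+ tors J p k where
  toFun y := ⟨p • (y : J), by
    rw [mem_tors, smul_smul, ← pow_succ]
    exact (mem_tors p).1 y.2⟩
  map_zero' := by
    apply Subtype.ext
    simp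
  map_add' x y := by
    apply Subtype.ext
    simp [smul_add]

theorem coe_mulP (k : ℕ) (y : tors J p (k + 1)) : ((mulP p k y : tors J p k) : J) = p • (y : J) :=
  rfl

/-- the kernel of `mulP` is `J[p]` -/
def kerEquiv (k : ℕ) : (mulP (J := J) p k).ker ≃ tors J p 1 where
  toFun y := ⟨((y : tors J p (k + 1)) : J), by
    rw [mem_tors, pow_one]
    have := y.2
    rw [AddMonoidHom.mem_ker] at this
    exact congrArg Subtype.val this⟩
  invFun y := ⟨⟨(y : J), by
    have := (mem_tors p).1 y.2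
    rw [pow_one] at this
    rw [mem_tors, pow_succ, mul_smul, this, smul_zero]⟩, by
    rw [AddMonoidHom.mem_ker]
    apply Subtype.ext
    rw [coe_mulP]
    have := (mem_tors p).1 y.2
    rw [pow_one] at this
    exact this⟩
  left_inv y := rfl
  right_inv y := rfl

variable (hcard : ∀ k : ℕ, Nat.card (tors J p k) = p ^ (2 * k))

include hcard in
theorem finite_tors (k : ℕ) : Finite (tors J p k) :=
  Nat.finite_of_card_ne_zero (by rw [hcard k]; exact (pow_pos hp.out.pos _).ne')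

include hcard in
theorem mulP_surjective (k : ℕ) : Function.Surjective (mulP (J := J) p k) := by
  haveI := finite_tors p hcard k
  haveI := finite_tors p hcard (k + 1)
  have h1 := AddSubgroup.card_mul_index (mulP (J := J) p k).ker
  rw [AddSubgroup.index_ker, Nat.card_congr (kerEquiv p k), hcard 1, hcard (k + 1)] at h1
  have h2 : Nat.card (mulP (J := J) p k).range = p ^ (2 * k) := by
    have hpos : 0 < p ^ (2 * 1) := pow_pos hp.out.pos _
    apply Nat.eq_of_mul_eq_mul_left hpos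
    rw [h1, ← pow_add]
    congr 1
    ring
  rw [← AddMonoidHom.range_eq_top]
  apply AddSubgroup.eq_top_of_card_eq
  rw [h2, hcard k]

include hcard in
/-- **the `p`-power torsion is `p`-divisible** -/
theorem exists_nsmul_eq (k : ℕ) (y : J) (hy : p ^ k • y = 0) :
    ∃ z : J, p • z = y ∧ p ^ (k + 1) • z = 0 := by
  obtain ⟨z, hz⟩ := mulP_surjective p hcard k ⟨y, (mem_tors p).2 hy⟩
  exact ⟨z, congrArg Subtype.val hz, (mem_tors p).1 z.2⟩

/-! ### Elements of the Tate module with prescribed first component -/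

/-- the recursion: a compatible sequence above `y₀` -/
def chain (hdiv : ∀ (k : ℕ) (y : J), p ^ k • y = 0 → ∃ z : J, p • z = y ∧ p ^ (k + 1) • z = 0)
    (y₀ : J) (h₀ : p ^ 1 • y₀ = 0) : (k : ℕ) → {y : J // p ^ (k + 1) • y = 0}
  | 0 => ⟨y₀, by simpa using h₀⟩
  | (k + 1) =>
    ⟨Classical.choose (hdiv (k + 1) (chain hdiv y₀ h₀ k).1 (chain hdiv y₀ h₀ k).2),
      (Classical.choose_spec (hdiv (k + 1) (chain hdiv y₀ h₀ k).1 (chain hdiv y₀ h₀ k).2)).2⟩

theorem smul_chain_succ
    (hdiv : ∀ (k : ℕ) (y : J), p ^ k • y = 0 → ∃ z : J, p • z = y ∧ p ^ (k + 1) • z = 0)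
    (y₀ : J) (h₀ : p ^ 1 • y₀ = 0) (k : ℕ) :
    p • (chain p hdiv y₀ h₀ (k + 1)).1 = (chain p hdiv y₀ h₀ k).1 :=
  (Classical.choose_spec (hdiv (k + 1) (chain p hdiv y₀ h₀ k).1 (chain p hdiv y₀ h₀ k).2)).1

theorem exists_tp_apply_one
    (hdiv : ∀ (k : ℕ) (y : J), p ^ k • y = 0 → ∃ z : J, p • z = y ∧ p ^ (k + 1) • z = 0)
    (y₀ : J) (h₀ : p • y₀ = 0) : ∃ x : Tp p J, x.1 1 = y₀ := by
  have h₀' : p ^ 1 • y₀ = 0 := by rwa [pow_one]
  refine ⟨⟨fun k => match k with
    | 0 => 0
    | (k + 1) => (chain p hdiv y₀ h₀' k).1, ?_, ?_⟩, rfl⟩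
  · rfl
  · intro k
    match k with
    | 0 => exact h₀
    | (k + 1) => exact smul_chain_succ p hdiv y₀ h₀' k

/-! ### Faithfulness -/

/-- **`ℤ` acts faithfully on the Tate module, `p`-adically.** -/
theorem int_mem_span_of_smul_mem
    (hdiv : ∀ (k : ℕ) (y : J), p ^ k • y = 0 → ∃ z : J, p • z = y ∧ p ^ (k + 1) • z = 0)
    (y₀ : J) (h₀ : p • y₀ = 0) (hy₀ : y₀ ≠ 0) (n : ℕ) (t : ℤ)
    (ht : ∀ v : Tp p J, ((t : Module.End ℤ_[p] (Tp p J))) v ∈
      (Ideal.span {(p : ℤ_[p])} ^ n) • (⊤ : Submodule ℤ_[p] (Tp p J))) :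
    t ∈ Ideal.span {(p : ℤ) ^ n} := by
  rw [Ideal.mem_span_singleton]
  obtain ⟨x, hx⟩ := exists_tp_apply_one p hdiv y₀ h₀
  rcases n with _ | n
  · rw [pow_zero]
    exact one_dvd t
  have h1 := (Tp.mem_pow_smul_top_iff _ (n + 1)).1 (ht x)
  rw [Module.End.intCast_apply] at h1
  have h2 : t • x.1 (n + 1) = 0 := by
    have := h1
    rwa [AddSubgroup.coe_zsmul, Pi.smul_apply] at this
  have hord : addOrderOf (x.1 (n + 1)) = p ^ (n + 1) := by
    apply addOrderOf_eq_prime_pow
    · have := Tp.pow_smul_apply_add x 1 n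
      rw [add_comm 1 n, hx] at this
      rw [this]
      exact hy₀
    · exact Tp.pow_smul_apply x (n + 1)
  have := addOrderOf_dvd_iff_zsmul_eq_zero.2 h2
  rw [hord] at this
  exact_mod_cast this

end Fermat.Agent.S58.TateNonzero
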