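import Mathlib
import Fermat.Prelude.Def_GaloisRep_ComplexConjugation
import Fermat.Prelude.Def_GaloisRep_LocalConditions
import Fermat.Agent.S30.Density.Bridge
import Fermat.Agent.S58.TateE
import Fermat.Agent.S58.TateNonzero
import Fermat.Agent.S58.AbsIrr
import Fermat.Agent.S58.InvolutionOdd

/-!
# S58 (sandbox, helper19): comparison of an adic representation with `T_p E`

`W` with `H : TateE.Hyp W`, `Δ ≠ 0`; `ρ : GaloisRepAdic T` (`T` local, `𝔪`-adically separated,
`p ∈ 𝔪`) with `charpoly ρ(τ) = X² - a_ℓ(W) X + ℓ` at the Frobenius lifts `τ` at the primes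
`ℓ ∉ Sg ⊇ {p} ∪ {bad primes}`.  Then

* `trace_frobenius_eq` : `tr ρ(σ) = a_q(W)` for a Frobenius lift `σ` at ANY good prime `q ≠ p`;
* `isUnipotentOnInertiaAt` : `ρ` is unipotent on inertia at EVERY prime `q ≠ p`;
* `cmp_residual` : the comparison `AbsIrr.Cmp` between `E[p]` and the residual representation;
* `residual_isOdd`, `residual_isAbsolutelyIrreducible` : `hres` of S36 from `hirr`.
-/

set_option autoImplicit false
set_option linter.unusedSectionVars false
set_option linter.style.haveILetI false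

noncomputable section

namespace Fermat.Agent.S58.Compare

open Polynomial IsLocalRing
open scoped WeierstrassCurve.Affine TensorProduct
open Fermat.Agent.S30.Padic.TateModule
open Fermat.Agent.S31.Core
open Fermat.Agent.S30.Algebra.DetGalois (Density inv_mul_apply_eq FrobCharpoly)
open Fermat.Agent.S30.Algebra
open Fermat.Agent.S58.TateE

local notation "Qb" => AlgebraicClosure ℚ
local notation "GQ" => (AlgebraicClosure ℚ ≃ₐ[ℚ] AlgebraicClosure ℚ)

variable {W : WeierstrassCurve ℤ} (p : ℕ) [Fact p.Prime]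

/-! ### Faithfulness of `ℤ` on `T_p E` -/

theorem card_tors (H : Hyp W) (k : ℕ) :
    Nat.card (TateNonzero.tors (Pts W) p k) = p ^ (2 * k) := by
  have hp : p.Prime := Fact.out
  have h := H.card (p ^ k) (pow_pos hp.pos k)
  rw [← pow_mul, mul_comm] at h
  rw [← h]
  refine Nat.card_congr (Equiv.subtypeEquivRight fun y => ?_)
  rw [TateNonzero.mem_tors, Submodule.mem_torsionBy_iff]
  push_cast
  rw [← Nat.cast_pow, natCast_zsmul]

theorem hdiv (H : Hyp W) : ∀ (k : ℕ) (y : Pts W), p ^ k • y = 0 →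
    ∃ z : Pts W, p • z = y ∧ p ^ (k + 1) • z = 0 :=
  TateNonzero.exists_nsmul_eq p (card_tors p H)

theorem exists_ptorsion_ne_zero (H : Hyp W) : ∃ y₀ : Pts W, p • y₀ = 0 ∧ y₀ ≠ 0 := by
  have hp : p.Prime := Fact.out
  have h := card_tors p H 1
  haveI : Finite (TateNonzero.tors (Pts W) p 1) :=
    Nat.finite_of_card_ne_zero (by rw [h]; exact (pow_pos hp.pos _).ne')
  have h1 : 1 < Nat.card (TateNonzero.tors (Pts W) p 1) := by
    rw [h]
    exact Nat.one_lt_pow (by norm_num) hp.one_lt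
  haveI : Nontrivial (TateNonzero.tors (Pts W) p 1) := Finite.one_lt_card_iff_nontrivial.1 h1
  obtain ⟨⟨y, hy⟩, hne⟩ := exists_ne (0 : TateNonzero.tors (Pts W) p 1)
  refine ⟨y, ?_, fun h0 => hne (Subtype.ext h0)⟩
  have := (TateNonzero.mem_tors p).1 hy
  rwa [pow_one] at this

/-- `hinj` of the abstract cores, for `𝕋 = ℤ` -/
theorem hinjZ (H : Hyp W) : ∀ n : ℕ, ∃ n' : ℕ, ∀ t : ℤ,
    (∀ v : Tp p (Pts W), thetaZ W p t v ∈
      (Ideal.span {(p : ℤ_[p])} ^ n') • (⊤ : Submodule ℤ_[p] (Tp p (Pts W)))) →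
      t ∈ Ideal.span {((p : ℕ) : ℤ) ^ n} := by
  intro n
  obtain ⟨y₀, h₀, hy₀⟩ := exists_ptorsion_ne_zero p H
  exact ⟨n, fun t ht => TateNonzero.int_mem_span_of_smul_mem p (hdiv p H) y₀ h₀ hy₀ n t ht⟩

/-- `T_p E` as a Hecke-Galois module, for any `Sg ⊇ {p} ∪ {bad primes}` -/
theorem heckeModule' (H : Hyp W) (hΔ : W.Δ ≠ 0) (Sg : Finset ℕ) (hSg : badSet W p ⊆ Sg) :
    HeckeModule Sg (Ideal.span {(p : ℤ_[p])}) (Tl W) (rT W p) (eps p) (thetaZ W p) :=
  heckeModule_padic p (hSg (mem_badSet_self p)) (Tl W) (rT W p) (thetaZ W p) (cont p H)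
    (comm p) (fun ℓ hℓ hℓS => es p H hΔ ℓ hℓ (fun h => hℓS (hSg h)))

/-! ### Traces -/

section Traces

variable {T : Type} [CommRing T] [IsLocalRing T]
variable (H : Hyp W) (hΔ : W.Δ ≠ 0) (Sg : Finset ℕ) (hSg : badSet W p ⊆ Sg)
variable (ρ : GaloisRepAdic T)
  (hcp : FrobCharpolyVia ρ Sg (Tl W) (Int.castRingHom T))
  (hsep : ∀ x : T, (∀ n, x ∈ maximalIdeal T ^ n) → x = 0)
  (hpT : (p : T) ∈ maximalIdeal T)

theorem density (Sg : Finset ℕ) : Density Sg := fun L hL σ =>
  haveI := hL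
  Fermat.Agent.S30.Density.Bridge.frobenius_density_final L σ Sg

include hpT in
theorem hinjT (H : Hyp W) : ∀ n : ℕ, ∃ n' : ℕ, ∀ t : ℤ,
    (∀ v : Tp p (Pts W), thetaZ W p t v ∈
      (Ideal.span {(p : ℤ_[p])} ^ n') • (⊤ : Submodule ℤ_[p] (Tp p (Pts W)))) →
      Int.castRingHom T t ∈ maximalIdeal T ^ n :=
  hinj_of_span p (Int.castRingHom T) hpT (hinjZ p H)

include H hΔ hSg hcp hsep hpT in
/-- **the trace of `ρ` at a Frobenius lift at ANY good prime `q ≠ p` is `a_q(W)`** -/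
theorem trace_frobenius_eq {q : ℕ} (hq : q.Prime) (hgood : W.IsGoodPrimeFor q) (hqp : q ≠ p)
    (A : ValuationSubring Qb) (hA : A.LiesOverPrime q) (σ : GQ) (hσ : A.IsFrobeniusAt σ q) :
    LinearMap.trace T ρ.V (ρ.ρ σ) = ((W.apOfModel q : ℤ) : T) := by
  have h := trace_eq_of_quadratic (heckeModule' p H hΔ Sg hSg) ρ (Int.castRingHom T) hcp
    (density Sg) hsep (hinjT p hpT H) σ (Tl W q) ?_
  · rw [h]
    rfl
  · have hε : eps p σ = (q : ℤ_[p]) :=
      Cyclotomic.cycChar_isFrobeniusAt p (RingHom.id ℤ_[p]) hq hqp A hA σ hσ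
    rw [hε, Nat.cast_smul_eq_nsmul, nsmul_eq_mul, mul_one]
    exact es_of_good p H hq hgood hqp A hA σ hσ

include H in
/-- inertia at any prime `q ≠ p` acts on `T_p E` with `(σ - 1)² = 0` -/
theorem rT_sub_one_sq {q : ℕ} (hq : q.Prime) (hqp : q ≠ p)
    (A : ValuationSubring Qb) (hA : A.LiesOverPrime q) (σ : GQ)
    (hσ : σ ∈ A.inertiaSubgroupIn ℚ) :
    (rT W p σ - 1) * (rT W p σ - 1) = 0 := by
  have hp : p.Prime := Fact.out
  have key : ∀ x : Tp p (Pts W), rT W p σ (rT W p σ x) + x = rT W p σ x + rT W p σ x := by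
    intro x
    apply Tp.ext
    intro k
    have hcop : (p ^ k).Coprime q :=
      Nat.Coprime.pow_left k ((Nat.coprime_primes hp hq).mpr (Ne.symm hqp))
    have hk := Tp.pow_smul_apply x k
    change σ • σ • x.1 k + x.1 k = σ • x.1 k + σ • x.1 k
    rw [← two_nsmul]
    by_cases hd : (q : ℤ) ∣ W.Δ
    · exact H.mult q hq hd A hA σ hσ (p ^ k) hcop (x.1 k) hk
    · have h1 := H.good q hq hd A hA σ hσ (p ^ k) hcop (x.1 k) hk
      rw [h1, h1, two_nsmul]
  apply LinearMap.ext
  intro x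
  rw [Module.End.mul_apply, LinearMap.sub_apply, LinearMap.sub_apply, Module.End.one_apply,
    Module.End.one_apply, map_sub, LinearMap.zero_apply, eq_sub_of_add_eq (key x)]
  abel

include H hΔ hSg hcp hsep hpT in
theorem trace_inertia_eq_two {q : ℕ} (hq : q.Prime) (hqp : q ≠ p)
    (A : ValuationSubring Qb) (hA : A.LiesOverPrime q) (σ : GQ)
    (hσ : σ ∈ A.inertiaSubgroupIn ℚ) :
    LinearMap.trace T ρ.V (ρ.ρ σ) = 2 :=
  Fermat.Agent.S34.UnipCore.trace_eq_two (heckeModule' p H hΔ Sg hSg) ρ (Int.castRingHom T) hcp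
    (density Sg) hsep (hinjT p hpT H) σ (rT_sub_one_sq p H hq hqp A hA σ hσ)
    (Cyclotomic.cycChar_inertia p (RingHom.id ℤ_[p]) hq hqp A hA σ hσ)

include H hΔ hSg hcp hsep hpT in
/-- **`ρ` is unipotent on inertia at every prime `q ≠ p`** -/
theorem isUnipotentOnInertiaAt [IsAdicComplete (maximalIdeal T) T] {q : ℕ} (hq : q.Prime)
    (hqp : q ≠ p) : ρ.IsUnipotentOnInertiaAt q := by
  intro P hP σ hσ
  refine Fermat.Agent.S34.UnipCore.charpoly_eq_of_trace_det ρ.finrank_eq (ρ.ρ σ)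
    (trace_inertia_eq_two p H hΔ Sg hSg ρ hcp hsep hpT hq hqp P hP σ hσ) ?_
  exact Fermat.Agent.S35.DetCyc.det_inertia_eq_one p hpT Sg (hSg (mem_badSet_self p))
    (fun ℓ => Int.castRingHom T (Tl W ℓ)) ρ hcp hq hqp P hP σ hσ

end Traces

/-! ### The residual comparison -/

section Residual

variable {T : Type} [CommRing T] [IsLocalRing T] [IsAdicComplete (maximalIdeal T) T]
variable [Algebra (ZMod p) (ResidueField T)]
variable (H : Hyp W) (hΔ : W.Δ ≠ 0) (Sg : Finset ℕ) (hSg : badSet W p ⊆ Sg)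
variable (ρ : GaloisRepAdic T)
  (hcp : FrobCharpolyVia ρ Sg (Tl W) (Int.castRingHom T))
  (hpT : (p : T) ∈ maximalIdeal T)

/-- the Galois action on `E[p]` (Prelude) -/
abbrev Ap (W : WeierstrassCurve ℤ) (p : ℕ) :
    GQ →* Module.End (ZMod p) (Submodule.torsionBy ℤ (Pts W) p) :=
  WeierstrassCurve.Affine.Point.galoisRepModuleEnd (K := Qb) ℚ (WQ W) p

theorem separated (x : T) (hx : ∀ n, x ∈ maximalIdeal T ^ n) : x = 0 :=
  Fermat.Agent.S35.DetCyc.separated x hx

omit [Algebra (ZMod p) (ResidueField T)] [IsAdicComplete (maximalIdeal T) T] in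
include hpT in
theorem residue_natCast_p : (p : ResidueField T) = 0 := by
  have := (residue_eq_zero_iff (p : T)).2 hpT
  rwa [map_natCast] at this

include hpT in
/-- the residue of `ι x` only depends on `x` modulo `p` -/
theorem residue_iota (ι : ℤ_[p] →+* T) (x : ℤ_[p]) :
    residue T (ι x) = algebraMap (ZMod p) (ResidueField T) ((x.appr 1 : ℕ) : ZMod p) := by
  have h1 := PadicInt.appr_spec 1 x
  rw [Ideal.mem_span_singleton] at h1
  obtain ⟨y, hy⟩ := h1
  have h2 : x = (x.appr 1 : ℤ_[p]) + (p : ℤ_[p]) ^ 1 * y := by rw [← hy]; ring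
  conv_lhs => rw [h2]
  rw [map_add, map_mul, map_pow, map_natCast, map_natCast, map_add, map_mul, map_pow, map_natCast,
    map_natCast, residue_natCast_p p hpT, pow_one, zero_mul, add_zero, map_natCast]

include H hΔ hSg hcp hpT in
/-- **the comparison between `E[p]` and the residual representation of `ρ`** -/
theorem cmp_residual : AbsIrr.Cmp (Ap W p) ρ.residual.ρ := by
  intro σ
  have hp : p.Prime := Fact.out
  have hpS : p ∈ Sg := hSg (mem_badSet_self p)
  obtain ⟨ι⟩ := Cyclotomic.exists_ringHom p (maximalIdeal T) hpT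
  obtain ⟨b₀, hb1, hb2⟩ := exists_approx (heckeModule' p H hΔ Sg hSg) ρ (Int.castRingHom T) hcp
    (density Sg) σ 1
  refine ⟨(b₀ : ZMod p), (((eps p σ).appr 1 : ℕ) : ZMod p), ?_, ?_, ?_⟩
  · -- the trace
    change _ = LinearMap.trace (ResidueField T) _ ((ρ.ρ σ).baseChange (ResidueField T))
    rw [LinearMap.trace_baseChange, map_intCast]
    rw [pow_one] at hb2
    have := (residue_eq_zero_iff _).2 hb2
    rw [map_sub, sub_eq_zero] at this
    rw [ResidueField.algebraMap_eq, this]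
    change _ = residue T ((b₀ : ℤ) : T)
    rw [map_intCast]
  · -- the determinant
    change _ = LinearMap.det ((ρ.ρ σ).baseChange (ResidueField T))
    rw [LinearMap.det_baseChange]
    have hdet := Fermat.Agent.S35.DetCyc.det_eq_cycChar_of_frobCharpoly p separated hpT ι Sg hpS
      (fun ℓ => Int.castRingHom T (Tl W ℓ)) ρ hcp σ
    rw [hdet, Cyclotomic.cycChar_apply]
    change _ = residue T (ι _)
    rw [residue_iota p hpT ι]
    rfl
  · -- the relation on `E[p]`
    apply LinearMap.ext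
    rintro ⟨P, hP⟩
    have hP' : p • P = 0 := by
      have := (Submodule.mem_torsionBy_iff _ _).1 hP
      rwa [natCast_zsmul] at this
    obtain ⟨x, hx⟩ := TateNonzero.exists_tp_apply_one p (hdiv p H) P hP'
    have h1 := (Tp.mem_pow_smul_top_iff _ 1).1 (hb1 x)
    apply Subtype.ext
    rw [LinearMap.add_apply, LinearMap.sub_apply, Module.End.mul_apply, LinearMap.smul_apply,
      LinearMap.smul_apply, Module.End.one_apply, LinearMap.zero_apply, Int.cast_smul_eq_zsmul,
      Nat.cast_smul_eq_nsmul]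
    rw [LinearMap.add_apply, LinearMap.sub_apply, Module.End.mul_apply, Module.End.mul_apply,
      LinearMap.smul_apply, Module.End.one_apply, Tp.coe_add_apply, Tp.coe_sub_apply,
      thetaZ_apply, Tp.coe_smul_apply] at h1
    change σ • σ • x.1 1 - b₀ • σ • x.1 1 + (eps p σ).appr 1 • x.1 1 = 0 at h1
    rw [hx] at h1
    exact h1

end Residual

/-! ### Oddness -/

section Odd

/-- the complex conjugation is not the identity -/
theorem complexConjugation_ne_one : complexConjugation ≠ 1 := by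
  intro h
  obtain ⟨x, hx⟩ := IsAlgClosed.exists_pow_nat_eq (-1 : Qb) (n := 2) (by norm_num)
  have h1 := complexEmbedding_complexConjugation x
  rw [h, AlgEquiv.one_apply] at h1
  obtain ⟨r, hr⟩ := Complex.conj_eq_iff_real.1 h1.symm
  have h2 : (complexEmbedding x) ^ 2 = -1 := by
    rw [← map_pow, hx, map_neg, map_one]
  rw [hr] at h2
  have h3 : ((r ^ 2 : ℝ) : ℂ) = ((-1 : ℝ) : ℂ) := by
    push_cast
    exact h2
  have h4 : r ^ 2 = -1 := Complex.ofReal_injective h3
  nlinarith [sq_nonneg r]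

/-- **the cyclotomic character of an involution `c ≠ 1` is `-1`** (`p` odd) -/
theorem cyc_involution (hp2 : p ≠ 2) (c : GQ) (hc : c * c = 1) (hc1 : c ≠ 1) :
    ((Cyclotomic.cyc p c : ℤ_[p]ˣ) : ℤ_[p]) = -1 := by
  have hp : p.Prime := Fact.out
  have hsq : ((Cyclotomic.cyc p c : ℤ_[p]ˣ) : ℤ_[p]) * ((Cyclotomic.cyc p c : ℤ_[p]ˣ) : ℤ_[p])
      = 1 := by
    rw [← Units.val_mul, ← map_mul, hc, map_one, Units.val_one]
  have hor : ((Cyclotomic.cyc p c : ℤ_[p]ˣ) : ℤ_[p]) = 1 ∨
      ((Cyclotomic.cyc p c : ℤ_[p]ˣ) : ℤ_[p]) = -1 := by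
    have : (((Cyclotomic.cyc p c : ℤ_[p]ˣ) : ℤ_[p]) - 1) *
        (((Cyclotomic.cyc p c : ℤ_[p]ˣ) : ℤ_[p]) + 1) = 0 := by
      linear_combination hsq
    rcases mul_eq_zero.1 this with h | h
    · exact Or.inl (sub_eq_zero.1 h)
    · exact Or.inr (eq_neg_of_add_eq_zero_left h)
  rcases hor with h | h
  · exfalso
    haveI : NeZero p := ⟨hp.ne_zero⟩
    obtain ⟨ζ, hζ⟩ := HasEnoughRootsOfUnity.exists_primitiveRoot Qb p
    have hζp : ζ ^ p ^ 1 = 1 := by rw [pow_one]; exact hζ.pow_eq_one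
    have hζ1 : ζ ≠ 1 := hζ.ne_one hp.one_lt
    have hspec := Cyclotomic.cyc_spec p c 1 ζ hζp
    rw [h, map_one] at hspec
    haveI : Fact (1 < p ^ 1) := ⟨by rw [pow_one]; exact hp.one_lt⟩
    rw [ZMod.val_one, pow_one] at hspec
    have hodd : Odd p := hp.odd_of_ne_two hp2
    exact InvolutionOdd.ne_of_involution_qbar c hc hc1 hodd hζ.pow_eq_one hζ1 hspec
  · exact h

variable {T : Type} [CommRing T] [IsLocalRing T] [IsAdicComplete (maximalIdeal T) T]
variable (Sg : Finset ℕ) (hpS : p ∈ Sg) (ρ : GaloisRepAdic T) (a : ℕ → T)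
  (hcp : FrobCharpoly ρ Sg a) (hpT : (p : T) ∈ maximalIdeal T)

include hpS hcp hpT in
/-- **oddness of the residual representation** -/
theorem residual_isOdd (hp2 : p ≠ 2) : ρ.residual.IsOdd := by
  intro c hc hc1
  obtain ⟨ι⟩ := Cyclotomic.exists_ringHom p (maximalIdeal T) hpT
  change LinearMap.det ((ρ.ρ c).baseChange (ResidueField T)) = -1
  rw [LinearMap.det_baseChange,
    Fermat.Agent.S35.DetCyc.det_eq_cycChar_of_frobCharpoly p separated hpT ι Sg hpS a ρ hcp c,
    Cyclotomic.cycChar_apply, cyc_involution p hp2 c hc hc1, map_neg, map_one, map_neg, map_one]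

end Odd

/-! ### `hres` -/

section Hres

variable {T : Type} [CommRing T] [IsLocalRing T] [IsAdicComplete (maximalIdeal T) T]
variable (H : Hyp W) (hΔ : W.Δ ≠ 0) (Sg : Finset ℕ) (hSg : badSet W p ⊆ Sg)
variable (ρ : GaloisRepAdic T)
  (hcp : FrobCharpolyVia ρ Sg (Tl W) (Int.castRingHom T))
  (hpT : (p : T) ∈ maximalIdeal T)

include H in
theorem finrank_torsion : Module.finrank (ZMod p) (Submodule.torsionBy ℤ (Pts W) p) = 2 := by
  have hp : p.Prime := Fact.out
  haveI := finite_torsion H hp.pos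
  have h := Module.natCard_eq_pow_finrank (K := ZMod p)
    (V := Submodule.torsionBy ℤ (Pts W) p)
  rw [H.card p hp.pos, Nat.card_zmod] at h
  exact (Nat.pow_right_injective hp.two_le h).symm

include H hΔ hSg hcp hpT in
/-- **absolute irreducibility of the residual representation from the irreducibility of `E[p]`** -/
theorem residual_isAbsolutelyIrreducible (hp2 : p ≠ 2) (hirr : W.ModRepIsIrreducible p) :
    ρ.residual.IsAbsolutelyIrreducible := by
  have hpS : p ∈ Sg := hSg (mem_badSet_self p)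
  haveI : CharP (ResidueField T) p :=
    (CharP.charP_iff_prime_eq_zero Fact.out).mpr (residue_natCast_p p hpT)
  letI : Algebra (ZMod p) (ResidueField T) := ZMod.algebra _ p
  have hodd := residual_isOdd p Sg hpS ρ (fun ℓ => Int.castRingHom T (Tl W ℓ)) hcp hpT hp2
  have hirr' : ∀ N : Submodule (ZMod p) (Submodule.torsionBy ℤ (Pts W) p),
      (∀ σ : GQ, ∀ x ∈ N, Ap W p σ x ∈ N) → N = ⊥ ∨ N = ⊤ := fun N hN => hirr.2 N hN
  exact AbsIrr.irreducible_baseChange hp2 (finrank_torsion p H) (Ap W p) hirr'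
    ρ.residual.finrank_eq ρ.residual.ρ (cmp_residual p H hΔ Sg hSg ρ hcp hpT)
    complexConjugation complexConjugation_mul_self
    (hodd complexConjugation complexConjugation_mul_self complexConjugation_ne_one)
    (AlgebraicClosure (ResidueField T))

end Hres

end Fermat.Agent.S58.Compare
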