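import Mathlib
import Fermat.Agent.S13.CU.FreyInputs
import Fermat.Agent.S58.TateE
import Fermat.Agent.S58.Red.Frob
import Fermat.Agent.S58.Mult.Unipotent
import Fermat.Agent.S58.HW.OneSubFrob

/-!
# S58 (sandbox, helper19): the elliptic-curve side `TateE.Hyp W` for a semistable model

* `card` : S13 (`FreyInputs.torsionCard_rat`, on main);
* `good` : helper18 (`Red.Good.good`);
* `mult` : helper11 (`Mult.Unipotent.mult_of_semistable`);
* `frob` : helper18 (`Red.Frob.frob_of_HW`) from Hasse–Weil on the points of the reduction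
  (`HWProp`, helper12 / helper17 / helper9).
-/

set_option autoImplicit false
set_option linter.unusedSectionVars false
set_option linter.style.haveILetI false

noncomputable section

namespace Fermat.Agent.S58.ESide

open WeierstrassCurve WeierstrassCurve.Affine IsLocalRing
open scoped WeierstrassCurve.Affine
open Fermat.Agent.S58.TateE
open Fermat.Agent.S58.HW.OneSubFrob (phi)

local notation "Qb" => AlgebraicClosure ℚ

/-- **Hasse–Weil on the points** of an elliptic curve over `𝔽_ℓ`, over any field extension. -/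
def HWProp : Prop :=
  ∀ (ℓ : ℕ) [Fact ℓ.Prime] (W' : Affine (ZMod ℓ)) [W'.IsElliptic] (L : Type) [Field L]
    [Algebra (ZMod ℓ) L] [DecidableEq L] (T : (W'⁄L).Point),
    phi W' L (phi W' L T) - ((ℓ : ℤ) + 1 - (Nat.card W'.Point : ℤ)) • phi W' L T + (ℓ : ℤ) • T = 0

theorem card_of_disc_ne_zero (W : WeierstrassCurve ℤ) (hΔ : W.Δ ≠ 0) (m : ℕ) (hm : 0 < m) :
    Nat.card (Submodule.torsionBy ℤ (Pts W) m) = m ^ 2 := by
  have hΔ' : (WQ W).Δ ≠ 0 := by
    rw [WeierstrassCurve.map_Δ]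
    exact fun h => hΔ (Int.cast_injective (α := ℚ) (by simpa using h))
  exact Fermat.Agent.S13.CU.FreyInputs.torsionCard_rat (WQ W) hΔ' hm

open Classical in
theorem frob_of_HWProp (hHW : HWProp) (W : WeierstrassCurve ℤ) (ℓ : ℕ) (hℓ : ℓ.Prime)
    (hgood : W.IsGoodPrimeFor ℓ) (A : ValuationSubring Qb) (hA : A.LiesOverPrime ℓ)
    (τ : Qb ≃ₐ[ℚ] Qb) (hτ : A.IsFrobeniusAt τ ℓ) (m : ℕ) (hm : m.Coprime ℓ)
    (P : Pts W) (hP : m • P = 0) :
    τ • τ • P - W.apOfModel ℓ • τ • P + ℓ • P = 0 := by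
  haveI : Fact ℓ.Prime := ⟨hℓ⟩
  haveI : CharP (ResidueField A) ℓ := Fermat.Agent.S58.Red.Frob.charP_residueField hℓ hA
  letI : Algebra (ZMod ℓ) (ResidueField A) := ZMod.algebra _ ℓ
  have hΔ' : (W.reductionMod ℓ).Δ ≠ 0 := by
    unfold WeierstrassCurve.reductionMod
    rw [WeierstrassCurve.map_Δ, eq_intCast, Ne, ZMod.intCast_zmod_eq_zero_iff_dvd]
    exact hgood
  haveI : (W.reductionMod ℓ).IsElliptic := ⟨isUnit_iff_ne_zero.2 hΔ'⟩
  refine Fermat.Agent.S58.Red.Frob.frob_of_HW W ℓ hℓ hgood A hA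
    (phi (W.reductionMod ℓ) (ResidueField A)) (map_zero _) ?_ ?_ τ hτ m hm P hP
  · intro x y hxy
    exact ⟨_, rfl⟩
  · intro T
    have h := hHW ℓ (W.reductionMod ℓ) (ResidueField A) T
    have ha : W.apOfModel ℓ = (ℓ : ℤ) + 1 - (Nat.card (W.reductionMod ℓ).toAffine.Point : ℤ) := by
      unfold WeierstrassCurve.apOfModel WeierstrassCurve.traceOfFrobenius WeierstrassCurve.card
      rw [Nat.card_zmod]
    rw [ha]
    rw [natCast_zsmul] at h
    exact h

theorem hyp_of_semistable (hHW : HWProp) (W : WeierstrassCurve ℤ) (hss : W.IsSemistableModel)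
    (hΔ : W.Δ ≠ 0) : Hyp W where
  card := card_of_disc_ne_zero W hΔ
  frob := fun ℓ hℓ hgood A hA τ hτ m hm P hP => frob_of_HWProp hHW W ℓ hℓ hgood A hA τ hτ m hm P hP
  good := fun q hq hgood A hA σ hσ m hm P hP =>
    Fermat.Agent.S58.Red.Good.good W q hq hgood A hA σ hσ m hm P hP
  mult := Fermat.Agent.S58.Mult.Unipotent.mult_of_semistable W hss hΔ

end Fermat.Agent.S58.ESide
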