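import Mathlib
import Fermat.Prelude.Def_CuspForm_Newforms
import Fermat.Agent.S30.Residual.Eigen
import Fermat.Agent.S35.OccursAt

/-!
# S58 (sandbox, helper19): moving a good eigensystem down to its newform and up to a multiple

* `exists_newform` : a normalised eigenform `f` of level `N ≠ 0` has a "newform" (Prelude sense:
  the good eigensystem occurs at no proper divisor) `g` of some level `M ∣ N` with
  `a_ℓ(g) = a_ℓ(f)` for all primes `ℓ ∤ N`.
* `restrictCusp` : a cusp form on `Γ` viewed on a smaller group.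
* `exists_eigenform_of_dvd` : a normalised eigenform `g` of level `M`, `M ∣ R ≠ 0`: there is a
  normalised eigenform `h` of level `R` with `a_ℓ(h) = a_ℓ(g)` for all primes `ℓ ∤ R`
  (`g` itself, viewed at level `R`, is an anemic eigenvector; `S35/OccursAt`).
-/

set_option autoImplicit false
set_option linter.unusedSectionVars false
set_option linter.style.haveILetI false

noncomputable section

namespace Fermat.Agent.S58.Descent

open CuspForm CongruenceSubgroup ModularFormClass UpperHalfPlane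
open Fermat.Agent.S49.Eigenform

/-! ### Down -/

/-- **Newform descent** (Prelude sense of "newform"). -/
theorem exists_newform : ∀ N : ℕ, N ≠ 0 → ∀ f : CuspForm (Gamma0 N) 2, f.IsNormalizedEigenform →
    ∃ M : ℕ, M ∣ N ∧ ∃ g : CuspForm (Gamma0 M) 2, g.IsNewform ∧
      ∀ ℓ : ℕ, ℓ.Prime → ¬ ℓ ∣ N → qCoeff g ℓ = qCoeff f ℓ := by
  intro N
  induction N using Nat.strong_induction_on with
  | _ N ih =>
    intro hN f hf
    by_cases hnew : f.IsNewform
    · exact ⟨N, dvd_rfl, f, hnew, fun _ _ _ => rfl⟩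
    · have hex : ∃ M' : ℕ, M' ∣ N ∧ M' ≠ N ∧ GoodEigensystemOccursAt f M' := by
        by_contra hcon
        push Not at hcon
        exact hnew ⟨hf, fun M hM hne h => hcon M hM hne h⟩
      obtain ⟨M', hM'N, hne, g', hg', hcoef⟩ := hex
      have hM'0 : M' ≠ 0 := by
        rintro rfl
        exact hN (zero_dvd_iff.mp hM'N)
      have hlt : M' < N := lt_of_le_of_ne (Nat.le_of_dvd (Nat.pos_of_ne_zero hN) hM'N) hne
      obtain ⟨M, hMM', g, hg, hc⟩ := ih M' hlt hM'0 g' hg'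
      refine ⟨M, hMM'.trans hM'N, g, hg, fun ℓ hℓ hℓN => ?_⟩
      rw [hc ℓ hℓ (fun h => hℓN (h.trans hM'N)), hcoef ℓ hℓ hℓN]

/-! ### Up -/

/-- Restriction of a cusp form to a smaller group. -/
def restrictCusp {k : ℤ} {Γ Γ' : Subgroup (GL (Fin 2) ℝ)} (h : Γ' ≤ Γ) (f : CuspForm Γ k) :
    CuspForm Γ' k where
  toFun := f
  slash_action_eq' γ hγ := f.slash_action_eq' γ (h hγ)
  holo' := f.holo'
  zero_at_cusps' hc := f.zero_at_cusps' (hc.mono h)

@[simp] theorem coe_restrictCusp {k : ℤ} {Γ Γ' : Subgroup (GL (Fin 2) ℝ)} (h : Γ' ≤ Γ)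
    (f : CuspForm Γ k) : ⇑(restrictCusp h f) = ⇑f := rfl

theorem Gamma0_le_of_dvd {M R : ℕ} (h : M ∣ R) : Gamma0 R ≤ Gamma0 M := by
  intro g hg
  rw [Gamma0_mem, ZMod.intCast_zmod_eq_zero_iff_dvd] at hg ⊢
  exact dvd_trans (by exact_mod_cast h) hg

theorem G0_le_of_dvd {M R : ℕ} (h : M ∣ R) :
    (Gamma0 R : Subgroup (GL (Fin 2) ℝ)) ≤ (Gamma0 M : Subgroup (GL (Fin 2) ℝ)) :=
  Subgroup.map_mono (Gamma0_le_of_dvd h)

/-- a form of level `M` viewed at level `R`, `M ∣ R` -/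
def raiseLevel {M R : ℕ} (h : M ∣ R) (g : CuspForm (Gamma0 M) 2) : CuspForm (Gamma0 R) 2 :=
  restrictCusp (G0_le_of_dvd h) g

theorem qCoeff_raiseLevel {M R : ℕ} (h : M ∣ R) (g : CuspForm (Gamma0 M) 2) (n : ℕ) :
    qCoeff (raiseLevel h g) n = qCoeff g n := rfl

theorem ext_qCoeff {N : ℕ} {f g : CuspForm (Gamma0 N) 2} (h : ∀ n, qCoeff f n = qCoeff g n) :
    f = g := by
  rw [← sub_eq_zero]
  refine eq_zero_of_qCoeff _ fun n => ?_
  rw [sub_eq_add_neg, qCoeff_add, ← neg_one_smul ℂ g, qCoeff_smul, h n]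
  ring

/-- a normalised eigenform of level `M`, viewed at level `R`, is an eigenvector of the `T_ℓ`,
`ℓ ∤ R` -/
theorem heckeTLin_raiseLevel {M R : ℕ} (h : M ∣ R) {g : CuspForm (Gamma0 M) 2}
    (hg : g.IsNormalizedEigenform) {ℓ : ℕ} (hℓ : ℓ.Prime) (hℓR : ¬ ℓ ∣ R) :
    heckeTLin 2 hℓ hℓR (raiseLevel h g) = qCoeff g ℓ • raiseLevel h g := by
  have hℓM : ¬ ℓ ∣ M := fun hd => hℓR (hd.trans h)
  refine ext_qCoeff fun n => ?_
  rw [qCoeff_heckeTLin hℓ hℓR, qCoeff_smul, qCoeff_raiseLevel, qCoeff_raiseLevel,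
    qCoeff_raiseLevel]
  exact Fermat.Agent.S30.Residual.Eigen.coeff_relation_T hg hℓ hℓM n

/-- **Going up.** -/
theorem exists_eigenform_of_dvd {M R : ℕ} [NeZero R] (h : M ∣ R) {g : CuspForm (Gamma0 M) 2}
    (hg : g.IsNormalizedEigenform) :
    ∃ f : CuspForm (Gamma0 R) 2, f.IsNormalizedEigenform ∧
      ∀ ℓ : ℕ, ℓ.Prime → ¬ ℓ ∣ R → qCoeff f ℓ = qCoeff g ℓ := by
  have hne : Fermat.Agent.S35.OccursAt.anemicEigenspace R (∅ : Set ℕ) (fun ℓ => qCoeff g ℓ) ≠ ⊥ := by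
    intro hbot
    have hmem : raiseLevel h g ∈
        Fermat.Agent.S35.OccursAt.anemicEigenspace R (∅ : Set ℕ) (fun ℓ => qCoeff g ℓ) :=
      fun ℓ hℓ hℓR _ => heckeTLin_raiseLevel h hg hℓ hℓR
    rw [hbot, Submodule.mem_bot] at hmem
    have h1 : qCoeff (raiseLevel h g) 1 = 1 := by
      rw [qCoeff_raiseLevel]
      exact hg.qCoeff_one
    rw [hmem] at h1
    have h0 : qCoeff (0 : CuspForm (Gamma0 R) 2) 1 = 0 := by
      have := qCoeff_smul (0 : ℂ) (0 : CuspForm (Gamma0 R) 2) 1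
      rwa [zero_smul, zero_mul] at this
    rw [h0] at h1
    exact zero_ne_one h1
  obtain ⟨f, hf, hcoef⟩ :=
    Fermat.Agent.S35.OccursAt.exists_normalizedEigenform_of_anemicEigenspace_ne_bot hne
  exact ⟨f, hf, fun ℓ hℓ hℓR => hcoef ℓ hℓ hℓR (Set.notMem_empty ℓ)⟩

end Fermat.Agent.S58.Descent
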