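import Mathlib
import Fermat.Agent.S29
import Fermat.Agent.S30.Residual.Eigen
import Fermat.Agent.S31.Lucas
import Fermat.Agent.Lib.FrobeniusExists
import Fermat.Agent.S35.ResidueMap
import Fermat.Agent.S58.Compare

/-!
# S58 (sandbox, helper19): step (2), the good eigenvalues at the primes dividing `N / M`

`g` a normalised eigenform of level `M` with `a_ℓ(g) = a_ℓ(W)` for all primes `ℓ ∤ N`
(`N ≠ 0` divisible by the bad primes of `W`).  Then `a_ℓ₀(g) = a_ℓ₀(W)` for EVERY good prime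
`ℓ₀ ∤ M`: compare the residual representations (S29) of `g` at large primes `p'` with `E[p'^∞]`
(`Compare.trace_frobenius_eq` over the field `k`).
-/

set_option autoImplicit false
set_option linter.unusedSectionVars false
set_option linter.style.haveILetI false

namespace Fermat.Agent.S58.GoodCoeff

open Polynomial CuspForm CongruenceSubgroup ModularFormClass IsLocalRing
open Fermat.Agent.S58.TateE
open Fermat.Agent.S31.Core

/-- `ℤbar`. -/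
abbrev Zbar := integralClosure ℤ ℂ

local notation "Qb" => AlgebraicClosure ℚ

theorem badSet_subset {W : WeierstrassCurve ℤ} {N : ℕ} (hN0 : N ≠ 0)
    (hbad : ∀ ℓ : ℕ, ℓ.Prime → (ℓ : ℤ) ∣ W.Δ → ℓ ∣ N) (p : ℕ) :
    badSet W p ⊆ insert p N.primeFactors := by
  intro ℓ hℓ
  rw [badSet, Finset.mem_insert] at hℓ
  rcases hℓ with rfl | hℓ
  · exact Finset.mem_insert_self _ _
  · refine Finset.mem_insert_of_mem ?_
    obtain ⟨hℓp, hℓd, -⟩ := Nat.mem_primeFactors.1 hℓ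
    exact Nat.mem_primeFactors.2 ⟨hℓp, hbad ℓ hℓp (Int.natCast_dvd.2 hℓd), hN0⟩

theorem coeff_eq_of_good {W : WeierstrassCurve ℤ} (H : Hyp W) (hΔ : W.Δ ≠ 0) {N : ℕ} (hN0 : N ≠ 0)
    (hbad : ∀ ℓ : ℕ, ℓ.Prime → (ℓ : ℤ) ∣ W.Δ → ℓ ∣ N)
    {M : ℕ} (hMN : M ∣ N) {g : CuspForm (Gamma0 M) 2} (hg : g.IsNormalizedEigenform)
    (hcoef : ∀ ℓ : ℕ, ℓ.Prime → ¬ ℓ ∣ N → qCoeff g ℓ = (W.apOfModel ℓ : ℂ))
    {ℓ₀ : ℕ} (hℓ₀ : ℓ₀.Prime) (hℓ₀M : ¬ ℓ₀ ∣ M) (hgood : W.IsGoodPrimeFor ℓ₀) :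
    qCoeff g ℓ₀ = (W.apOfModel ℓ₀ : ℂ) := by
  classical
  have hM0 : M ≠ 0 := by rintro rfl; exact hN0 (zero_dvd_iff.1 hMN)
  haveI : NeZero M := ⟨hM0⟩
  let ag : Zbar := Fermat.Agent.S30.Residual.Eigen.eigenChar (∅ : Set ℕ) hg
    (CuspForm.heckeAlgebra.T hℓ₀ hℓ₀M (Set.notMem_empty _))
  have hag : (ag : ℂ) = qCoeff g ℓ₀ :=
    Fermat.Agent.S30.Residual.Eigen.eigenChar_T _ hg hℓ₀ hℓ₀M _
  by_contra hne
  have hx : ag - ((W.apOfModel ℓ₀ : ℤ) : Zbar) ≠ 0 := by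
    intro h0
    apply hne
    rw [← hag, sub_eq_zero.1 h0]
    simp
  obtain ⟨p, hp, k, _, _, φ, hpℓ₀, hφ⟩ := Fermat.Agent.S35.ResidueMap.exists_residue_map hx ℓ₀
  apply hφ
  haveI : Fact p.Prime := ⟨hp⟩
  obtain ⟨ρg, hρg, -⟩ := Fermat.Agent.S29.result hg hp φ
  let ρ : GaloisRepAdic k := GaloisRepAdic.ofResidualGaloisRep ρg
  let Sg : Finset ℕ := insert p N.primeFactors
  have hSg : badSet W p ⊆ Sg := badSet_subset hN0 hbad p
  have hcast : ∀ {ℓ : ℕ}, ℓ.Prime → ℓ ≠ p → (ℓ : k) ≠ 0 := by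
    intro ℓ hℓ hℓp h0
    rw [CharP.cast_eq_zero_iff k p] at h0
    exact hℓp ((Nat.prime_dvd_prime_iff_eq hp hℓ).1 h0).symm
  have hcp : FrobCharpolyVia ρ Sg (Tl W) (Int.castRingHom k) := by
    intro ℓ hℓ hℓS A hA τ hτ
    have hℓp : ℓ ≠ p := fun h => hℓS (h ▸ Finset.mem_insert_self _ _)
    have hℓN : ¬ ℓ ∣ N := fun h =>
      hℓS (Finset.mem_insert_of_mem (Nat.mem_primeFactors.2 ⟨hℓ, h, hN0⟩))
    have hℓM : ¬ ℓ ∣ M := fun h => hℓN (h.trans hMN)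
    obtain ⟨b, hb, hc⟩ := hρg ℓ hℓ hℓM (hcast hℓ hℓp) A hA τ hτ
    have hb' : b = ((W.apOfModel ℓ : ℤ) : Zbar) := by
      apply Subtype.ext
      rw [hb, hcoef ℓ hℓ hℓN]
      simp
    change LinearMap.charpoly (ρg.ρ τ) = _
    rw [hc, hb', map_intCast]
    rfl
  have hbot : maximalIdeal k = ⊥ :=
    (Ideal.eq_bot_or_top _).resolve_right (Ideal.IsMaximal.ne_top inferInstance)
  have hsep : ∀ x : k, (∀ n, x ∈ maximalIdeal k ^ n) → x = 0 := by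
    intro x hx
    have := hx 1
    rwa [hbot, pow_one, Ideal.mem_bot] at this
  have hpT : (p : k) ∈ maximalIdeal k := by
    rw [CharP.cast_eq_zero k p]
    exact zero_mem _
  obtain ⟨A₀, σ, hA₀, hσ⟩ :=
    Fermat.Agent.Lib.FrobeniusExists.exists_valuationSubring_isFrobeniusAt ℓ₀ hℓ₀
  have hℓ₀p : ℓ₀ ≠ p := hpℓ₀.ne
  have t1 := Compare.trace_frobenius_eq p H hΔ Sg hSg ρ hcp hsep hpT hℓ₀ hgood hℓ₀p A₀ hA₀ σ hσ
  obtain ⟨c, hc0, hc1⟩ := hρg ℓ₀ hℓ₀ hℓ₀M (hcast hℓ₀ hℓ₀p) A₀ hA₀ σ hσ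
  have hcag : c = ag := Subtype.ext (by rw [hc0, hag])
  have t2 : LinearMap.trace k ρg.V (ρg.ρ σ) = φ ag := by
    rw [← hcag]
    exact Fermat.Agent.S31.Lucas.trace_eq_of_charpoly ρg.finrank_eq hc1
  change LinearMap.trace k ρg.V (ρg.ρ σ) = _ at t1
  rw [map_sub, ← t2, t1, map_intCast, sub_self]

end Fermat.Agent.S58.GoodCoeff
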