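import Mathlib
import Fermat.Prelude.Def_CuspForm_HeckeAlgebra
import Fermat.Agent.S30.Residual.Eigen

/-!
# S58 (sandbox, helper19): the eigencharacter of a form with rational integer eigenvalues

`g` a normalised eigenform of level `M`, `S ⊇ primes(M)`, `a_ℓ(g) ∈ ℤ` for all primes `ℓ ∤ M`,
`ℓ ∉ S`.  Then the eigencharacter `chig : 𝕋^S →+* ℂ` has image in `ℤ`, whence
`iota : chig.range →+* R` for every ring `R`, with `iota (chig T_ℓ) = a_ℓ`.
-/

set_option autoImplicit false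
set_option linter.unusedSectionVars false
set_option linter.style.haveILetI false

noncomputable section

namespace Fermat.Agent.S58.Iota

open CuspForm CongruenceSubgroup ModularFormClass
open Fermat.Agent.S30.Residual.Eigen

variable {M : ℕ} [NeZero M] {g : CuspForm (Gamma0 M) 2} (hg : g.IsNormalizedEigenform)
  (S : Set ℕ) (a : ℕ → ℤ)
  (ha : ∀ ℓ : ℕ, ℓ.Prime → ¬ ℓ ∣ M → ℓ ∉ S → qCoeff g ℓ = (a ℓ : ℂ))
  (hMS : ∀ q : ℕ, q.Prime → q ∣ M → q ∈ S)

include ha hMS in
theorem eigenCharC_mem_range (T : heckeAlgebra M 2 S) :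
    eigenCharC S hg T ∈ (Int.castRingHom ℂ).range := by
  obtain ⟨T, hT⟩ := T
  induction hT using Algebra.adjoin_induction with
  | mem T hT =>
    rcases hT with ⟨ℓ, hℓ, hℓM, hℓS, rfl⟩ | ⟨q, hqM, hq, hqS, rfl⟩
    · exact ⟨a ℓ, ((eigenCharC_T S hg hℓ hℓM hℓS).trans (ha ℓ hℓ hℓM hℓS)).symm⟩
    · exact absurd (hMS q hq hqM) hqS
  | algebraMap r =>
    refine ⟨r, ?_⟩
    have : (⟨algebraMap ℤ _ r, Subalgebra.algebraMap_mem _ r⟩ : heckeAlgebra M 2 S) =
        ((r : ℤ) : heckeAlgebra M 2 S) := by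
      apply Subtype.ext
      rw [SubringClass.coe_intCast]
      exact eq_intCast _ r
    rw [this, map_intCast]
    rfl
  | add T T' hT hT' h h' =>
    have : (⟨T + T', add_mem hT hT'⟩ : heckeAlgebra M 2 S) = ⟨T, hT⟩ + ⟨T', hT'⟩ := rfl
    rw [this, map_add]
    exact add_mem h h'
  | mul T T' hT hT' h h' =>
    have : (⟨T * T', mul_mem hT hT'⟩ : heckeAlgebra M 2 S) = ⟨T, hT⟩ * ⟨T', hT'⟩ := rfl
    rw [this, map_mul]
    exact mul_mem h h'

include ha hMS in
theorem range_le : (eigenCharC S hg).range ≤ (Int.castRingHom ℂ).range := by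
  rintro x ⟨T, rfl⟩
  exact eigenCharC_mem_range hg S a ha hMS T

/-- `ℤ ≃ ℤ ⊆ ℂ` -/
def intEquiv : ℤ ≃+* (Int.castRingHom ℂ).range :=
  RingEquiv.ofBijective (Int.castRingHom ℂ).rangeRestrict
    ⟨fun _ _ h => Int.cast_injective (α := ℂ) (congrArg Subtype.val h),
      (Int.castRingHom ℂ).rangeRestrict_surjective⟩

theorem intEquiv_apply (n : ℤ) : ((intEquiv n : (Int.castRingHom ℂ).range) : ℂ) = n := rfl

/-- the structure map `chig.range → R` -/
def iota (R : Type) [Ring R] : (eigenCharC S hg).range →+* R :=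
  (Int.castRingHom R).comp
    (intEquiv.symm.toRingHom.comp (Subring.inclusion (range_le hg S a ha hMS)))

theorem iota_apply (R : Type) [Ring R] (x : (eigenCharC S hg).range) (n : ℤ)
    (hx : (x : ℂ) = n) : iota hg S a ha hMS R x = (n : R) := by
  have h1 : Subring.inclusion (range_le hg S a ha hMS) x = intEquiv n := by
    apply Subtype.ext
    rw [intEquiv_apply, ← hx]
    rfl
  change Int.castRingHom R (intEquiv.symm (Subring.inclusion (range_le hg S a ha hMS) x)) = _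
  rw [h1, RingEquiv.symm_apply_apply]
  rfl

theorem iota_T (R : Type) [Ring R] {ℓ : ℕ} (hℓ : ℓ.Prime) (hℓM : ¬ ℓ ∣ M) (hℓS : ℓ ∉ S) :
    ((iota hg S a ha hMS R).comp (eigenCharC S hg).rangeRestrict)
      (CuspForm.heckeAlgebra.T hℓ hℓM hℓS) = (a ℓ : R) := by
  rw [RingHom.comp_apply]
  refine iota_apply hg S a ha hMS R _ (a ℓ) ?_
  rw [RingHom.coe_rangeRestrict, eigenCharC_T S hg hℓ hℓM hℓS, ha ℓ hℓ hℓM hℓS]

end Fermat.Agent.S58.Iota
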