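import Mathlib
import Fermat.Prelude.Def_CuspForm_HeckeGaloisRepDatum
import Fermat.Prelude.Def_CuspForm_Newforms
import Fermat.Prelude.Def_GaloisRep_LocalConditions
import Fermat.Prelude.Def_GaloisRep_Residual
import Fermat.Agent.S35
import Fermat.Agent.Lib.FrobeniusExists
import Fermat.Agent.S58.Compare
import Fermat.Agent.S58.GoodCoeff
import Fermat.Agent.S58.Iota
import Fermat.Agent.S58.PointCount

/-!
# S58 (sandbox, helper19): steps (3a), (3b): the level `M` of the newform divides `rad Δ`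

`g` a newform of level `M ∣ N` with `a_ℓ(g) = a_ℓ(W)` for all primes `ℓ ∤ N`.

* (3a) `dvd_disc_of_dvd_of_not_sq_dvd` : a prime `q ∥ M` divides `Δ` (S35: a Frobenius lift at `q`
  has trace `± (q + 1)`, but the trace is `a_q(W) ∈ [-q, q]` if `q` is good).
* (3b) `not_sq_dvd` : no prime `q ≠ p` has `q² ∥ M` (S36: the `p`-adic representation is not
  unipotent on inertia at `q`, but `T_p E` is).
-/

set_option autoImplicit false
set_option linter.unusedSectionVars false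
set_option linter.style.haveILetI false

namespace Fermat.Agent.S58.LevelM

open Polynomial CuspForm CongruenceSubgroup ModularFormClass IsLocalRing
open Fermat.Agent.S58.TateE
open Fermat.Agent.S31.Core
open Fermat.Agent.S30.Residual.Eigen (eigenCharC eigenCharC_T)

local notation "Qb" => AlgebraicClosure ℚ

/-- The statement of `S36`, verbatim. -/
def S36Prop : Prop :=
  ∀ {M : ℕ} [NeZero M] {g : CuspForm (CongruenceSubgroup.Gamma0 M) 2} (_hg : g.IsNewform)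
    (lam : ℕ) [Fact lam.Prime]
    (S : Finset ℕ)
    (O' : Type) [CommRing O'] [IsDomain O'] [IsDiscreteValuationRing O']
    [IsAdicComplete (IsLocalRing.maximalIdeal O') O'] [Finite (IsLocalRing.ResidueField O')]
    [CharZero O'] (_hlamO' : (lam : O') ∈ IsLocalRing.maximalIdeal O')
    (_hlam2 : lam ≠ 2)
    (chig : CuspForm.heckeAlgebra M 2 (↑S : Set ℕ) →+* ℂ)
    (_hchig : ∀ (ℓ : ℕ) (hℓ : ℓ.Prime) (hℓM : ¬ ℓ ∣ M) (hℓS : ℓ ∉ (↑S : Set ℕ)),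
      chig (CuspForm.heckeAlgebra.T hℓ hℓM hℓS) = ModularFormClass.qCoeff g ℓ)
    (iota : chig.range →+* O')
    (_hlamS : lam ∈ S) (_hMS : ∀ q : ℕ, q.Prime → q ∣ M → q ∈ S)
    (_hres : ∀ (O'' : Type) [CommRing O''] [IsDomain O''] [IsDiscreteValuationRing O'']
      [IsAdicComplete (IsLocalRing.maximalIdeal O'') O''] [Finite (IsLocalRing.ResidueField O'')] [CharZero O'']
      [Algebra O' O''] [Module.Finite O' O''] [IsLocalHom (algebraMap O' O'')],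
      Function.Injective (algebraMap O' O'') → ∀ (ρ : GaloisRepAdic O''),
      (∀ (ℓ : ℕ) (hℓ : ℓ.Prime) (_hℓlam : ℓ ≠ lam) (hℓM : ¬ ℓ ∣ M) (hℓS : ℓ ∉ (↑S : Set ℕ)),
        ∀ A : ValuationSubring (AlgebraicClosure ℚ), A.LiesOverPrime ℓ →
          ∀ σ : AlgebraicClosure ℚ ≃ₐ[ℚ] AlgebraicClosure ℚ, A.IsFrobeniusAt σ ℓ →
            LinearMap.charpoly (ρ.ρ σ) =
              X ^ 2 - C (algebraMap O' O'' ((iota.comp chig.rangeRestrict) (CuspForm.heckeAlgebra.T hℓ hℓM hℓS))) * X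
                + C ((ℓ : O'')))
      → ρ.residual.IsAbsolutelyIrreducible ∧ ρ.residual.IsOdd),
    ∃ (O'' : Type) (_ : CommRing O'') (_ : IsDomain O'') (_ : IsDiscreteValuationRing O'')
      (_ : IsAdicComplete (IsLocalRing.maximalIdeal O'') O'') (_ : Finite (IsLocalRing.ResidueField O''))
      (_ : CharZero O'') (_ : Algebra O' O'') (_ : Module.Finite O' O'') (_ : IsLocalHom (algebraMap O' O'')),
      Function.Injective (algebraMap O' O'') ∧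
      ∃ ρ : GaloisRepAdic O'',
        (∀ (ℓ : ℕ) (hℓ : ℓ.Prime) (hℓM : ¬ ℓ ∣ M) (hℓS : ℓ ∉ (↑S : Set ℕ)),
          ∀ A : ValuationSubring (AlgebraicClosure ℚ), A.LiesOverPrime ℓ →
            ∀ σ : AlgebraicClosure ℚ ≃ₐ[ℚ] AlgebraicClosure ℚ, A.IsFrobeniusAt σ ℓ →
              LinearMap.charpoly (ρ.ρ σ) =
                X ^ 2 - C (algebraMap O' O'' ((iota.comp chig.rangeRestrict) (CuspForm.heckeAlgebra.T hℓ hℓM hℓS))) * X
                  + C ((ℓ : O''))) ∧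
        (∀ q : ℕ, q.Prime → q ≠ lam → M.factorization q = 2 → ¬ ρ.IsUnipotentOnInertiaAt q)

section Common

variable {W : WeierstrassCurve ℤ} {N : ℕ} (hN0 : N ≠ 0)
  (hbad : ∀ ℓ : ℕ, ℓ.Prime → (ℓ : ℤ) ∣ W.Δ → ℓ ∣ N)
  {M : ℕ} [NeZero M] (hMN : M ∣ N) {g : CuspForm (Gamma0 M) 2}
  (hcoef : ∀ ℓ : ℕ, ℓ.Prime → ¬ ℓ ∣ N → qCoeff g ℓ = (W.apOfModel ℓ : ℂ))
  (lam : ℕ)

/-- the set `S` of the S35 / S36 calls -/
def SS (N lam : ℕ) : Finset ℕ := insert lam N.primeFactors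

theorem lam_mem_SS : lam ∈ SS N lam := Finset.mem_insert_self _ _

include hN0 in
theorem not_dvd_of_not_mem_SS {ℓ : ℕ} (hℓ : ℓ.Prime) (h : ℓ ∉ (↑(SS N lam) : Set ℕ)) : ¬ ℓ ∣ N :=
  fun hd => h (Finset.mem_coe.2 (Finset.mem_insert_of_mem (Nat.mem_primeFactors.2 ⟨hℓ, hd, hN0⟩)))

theorem ne_of_not_mem_SS {ℓ : ℕ} (h : ℓ ∉ (↑(SS N lam) : Set ℕ)) : ℓ ≠ lam :=
  fun hd => h (Finset.mem_coe.2 (hd ▸ Finset.mem_insert_self _ _))

include hN0 hcoef in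
theorem ha : ∀ ℓ : ℕ, ℓ.Prime → ¬ ℓ ∣ M → ℓ ∉ (↑(SS N lam) : Set ℕ) →
    qCoeff g ℓ = ((Tl W ℓ : ℤ) : ℂ) :=
  fun ℓ hℓ _ hℓS => hcoef ℓ hℓ (not_dvd_of_not_mem_SS hN0 lam hℓ hℓS)

include hN0 hMN in
theorem hMS : ∀ q : ℕ, q.Prime → q ∣ M → q ∈ (↑(SS N lam) : Set ℕ) :=
  fun _ hq hqM => Finset.mem_coe.2
    (Finset.mem_insert_of_mem (Nat.mem_primeFactors.2 ⟨hq, hqM.trans hMN, hN0⟩))

end Common

theorem natCast_mem_maximalIdeal_of_isLocalHom {O' O'' : Type} [CommRing O'] [IsLocalRing O']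
    [CommRing O''] [IsLocalRing O''] [Algebra O' O''] [IsLocalHom (algebraMap O' O'')] (lam : ℕ)
    (h : (lam : O') ∈ maximalIdeal O') : (lam : O'') ∈ maximalIdeal O'' := by
  rw [mem_maximalIdeal, mem_nonunits_iff] at h ⊢
  intro hu
  apply h
  rw [← map_natCast (algebraMap O' O'')] at hu
  exact isUnit_of_map_unit (algebraMap O' O'') _ hu

theorem padic_lam_mem (lam : ℕ) [Fact lam.Prime] : (lam : ℤ_[lam]) ∈ maximalIdeal ℤ_[lam] := by
  rw [PadicInt.maximalIdeal_eq_span_p]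
  exact Ideal.mem_span_singleton_self _

instance (lam : ℕ) [Fact lam.Prime] : Finite (ResidueField ℤ_[lam]) :=
  Finite.of_equiv _ (PadicInt.residueField (p := lam)).symm.toEquiv

/-- **step (3a)** -/
theorem dvd_disc_of_dvd_of_not_sq_dvd {W : WeierstrassCurve ℤ} (H : Hyp W) (hΔ : W.Δ ≠ 0)
    {N : ℕ} (hN0 : N ≠ 0) (hbad : ∀ ℓ : ℕ, ℓ.Prime → (ℓ : ℤ) ∣ W.Δ → ℓ ∣ N)
    {M : ℕ} [NeZero M] (hMN : M ∣ N) {g : CuspForm (Gamma0 M) 2} (hg : g.IsNewform)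
    (hcoef : ∀ ℓ : ℕ, ℓ.Prime → ¬ ℓ ∣ N → qCoeff g ℓ = (W.apOfModel ℓ : ℂ))
    {q : ℕ} (hq : q.Prime) (hqM : q ∣ M) (hq2 : ¬ q ^ 2 ∣ M) : (q : ℤ) ∣ W.Δ := by
  classical
  by_contra hgood
  -- a prime `lam ≠ q`
  obtain ⟨lam, hlam, hqlam⟩ : ∃ lam : ℕ, lam.Prime ∧ q ≠ lam := by
    by_cases h2 : q = 2
    · exact ⟨3, Nat.prime_three, by omega⟩
    · exact ⟨2, Nat.prime_two, h2⟩
  haveI : Fact lam.Prime := ⟨hlam⟩
  obtain ⟨O'', _, _, _, _, _, _, _, _, _, -, ρ, hfrob, hst⟩ :=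
    Fermat.Agent.S35.result hg lam (SS N lam) ℤ_[lam] (padic_lam_mem lam)
      (eigenCharC (↑(SS N lam) : Set ℕ) hg.1)
      (fun ℓ hℓ hℓM hℓS => eigenCharC_T _ hg.1 hℓ hℓM hℓS)
      (Iota.iota hg.1 (↑(SS N lam) : Set ℕ) (Tl W) (ha hN0 hcoef lam) (hMS hN0 hMN lam) ℤ_[lam])
      (lam_mem_SS lam) (hMS hN0 hMN lam)
  have hcp : FrobCharpolyVia ρ (SS N lam) (Tl W) (Int.castRingHom O'') := by
    intro ℓ hℓ hℓS A hA τ hτ
    have hℓS' : ℓ ∉ (↑(SS N lam) : Set ℕ) := fun h => hℓS (Finset.mem_coe.1 h)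
    have hℓM : ¬ ℓ ∣ M := fun h => not_dvd_of_not_mem_SS hN0 lam hℓ hℓS' (h.trans hMN)
    have := hfrob ℓ hℓ hℓM hℓS' A hA τ hτ
    rw [Iota.iota_T, map_intCast] at this
    exact this
  have hpT : (lam : O'') ∈ maximalIdeal O'' :=
    natCast_mem_maximalIdeal_of_isLocalHom (O' := ℤ_[lam]) lam (padic_lam_mem lam)
  obtain ⟨A₀, σ, hA₀, hσ⟩ :=
    Fermat.Agent.Lib.FrobeniusExists.exists_valuationSubring_isFrobeniusAt q hq
  have t1 := Compare.trace_frobenius_eq lam H hΔ (SS N lam) (GoodCoeff.badSet_subset hN0 hbad lam)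
    ρ hcp Compare.separated hpT hq hgood hqlam A₀ hA₀ σ hσ
  obtain ⟨hb1, hb2⟩ := PointCount.apOfModel_ne W hq
  rcases hst q hq hqlam hqM hq2 A₀ hA₀ σ hσ with h | h
  · have t2 := Fermat.Agent.S31.Lucas.trace_eq_of_charpoly ρ.finrank_eq h
    rw [t1] at t2
    apply hb1
    have : ((W.apOfModel q : ℤ) : O'') = (((q : ℤ) + 1 : ℤ) : O'') := by
      rw [t2]; push_cast; ring
    exact Int.cast_injective this
  · have h' : LinearMap.charpoly (ρ.ρ σ) = X ^ 2 - C (-((q : O'') + 1)) * X + C ((q : O'')) := by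
      rw [h, map_neg]; ring
    have t2 := Fermat.Agent.S31.Lucas.trace_eq_of_charpoly ρ.finrank_eq h'
    rw [t1] at t2
    apply hb2
    have : ((W.apOfModel q : ℤ) : O'') = ((-((q : ℤ) + 1) : ℤ) : O'') := by
      rw [t2]; push_cast; ring
    exact Int.cast_injective this

/-- **step (3b)** -/
theorem not_sq_dvd (h36 : S36Prop) {W : WeierstrassCurve ℤ} (H : Hyp W) (hΔ : W.Δ ≠ 0)
    {N : ℕ} (hN0 : N ≠ 0) (hbad : ∀ ℓ : ℕ, ℓ.Prime → (ℓ : ℤ) ∣ W.Δ → ℓ ∣ N)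
    {M : ℕ} [NeZero M] (hMN : M ∣ N) {g : CuspForm (Gamma0 M) 2} (hg : g.IsNewform)
    (hcoef : ∀ ℓ : ℕ, ℓ.Prime → ¬ ℓ ∣ N → qCoeff g ℓ = (W.apOfModel ℓ : ℂ))
    (p : ℕ) [Fact p.Prime] (hp2 : p ≠ 2) (hirr : W.ModRepIsIrreducible p)
    {q : ℕ} (hq : q.Prime) (hqp : q ≠ p) (hfac : M.factorization q = 2) : False := by
  classical
  obtain ⟨O'', _, _, _, _, _, _, _, _, _, -, ρ, hfrob, hst⟩ :=
    h36 hg p (SS N p) ℤ_[p] (padic_lam_mem p) hp2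
      (eigenCharC (↑(SS N p) : Set ℕ) hg.1)
      (fun ℓ hℓ hℓM hℓS => eigenCharC_T _ hg.1 hℓ hℓM hℓS)
      (Iota.iota hg.1 (↑(SS N p) : Set ℕ) (Tl W) (ha hN0 hcoef p) (hMS hN0 hMN p) ℤ_[p])
      (lam_mem_SS p) (hMS hN0 hMN p)
      (by
        intro O'' _ _ _ _ _ _ _ _ _ _ ρ hfrob
        have hcp : FrobCharpolyVia ρ (SS N p) (Tl W) (Int.castRingHom O'') := by
          intro ℓ hℓ hℓS A hA τ hτ
          have hℓS' : ℓ ∉ (↑(SS N p) : Set ℕ) := fun h => hℓS (Finset.mem_coe.1 h)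
          have hℓM : ¬ ℓ ∣ M := fun h => not_dvd_of_not_mem_SS hN0 p hℓ hℓS' (h.trans hMN)
          have := hfrob ℓ hℓ (ne_of_not_mem_SS p hℓS') hℓM hℓS' A hA τ hτ
          rw [Iota.iota_T, map_intCast] at this
          exact this
        have hpT : (p : O'') ∈ maximalIdeal O'' :=
          natCast_mem_maximalIdeal_of_isLocalHom (O' := ℤ_[p]) p (padic_lam_mem p)
        exact ⟨Compare.residual_isAbsolutelyIrreducible p H hΔ (SS N p)
            (GoodCoeff.badSet_subset hN0 hbad p) ρ hcp hpT hp2 hirr,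
          Compare.residual_isOdd p (SS N p) (lam_mem_SS p) ρ
            (fun ℓ => Int.castRingHom O'' (Tl W ℓ)) hcp hpT hp2⟩)
  have hcp : FrobCharpolyVia ρ (SS N p) (Tl W) (Int.castRingHom O'') := by
    intro ℓ hℓ hℓS A hA τ hτ
    have hℓS' : ℓ ∉ (↑(SS N p) : Set ℕ) := fun h => hℓS (Finset.mem_coe.1 h)
    have hℓM : ¬ ℓ ∣ M := fun h => not_dvd_of_not_mem_SS hN0 p hℓ hℓS' (h.trans hMN)
    have := hfrob ℓ hℓ hℓM hℓS' A hA τ hτ
    rw [Iota.iota_T, map_intCast] at this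
    exact this
  have hpT : (p : O'') ∈ maximalIdeal O'' :=
    natCast_mem_maximalIdeal_of_isLocalHom (O' := ℤ_[p]) p (padic_lam_mem p)
  exact hst q hq hqp hfac
    (Compare.isUnipotentOnInertiaAt p H hΔ (SS N p) (GoodCoeff.badSet_subset hN0 hbad p) ρ hcp
      Compare.separated hpT hq hqp)

end Fermat.Agent.S58.LevelM
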