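import Mathlib
import Fermat.Prelude.Def_FLTPrelim_ModularRep
import Fermat.Prelude.Def_WeierstrassCurve_ConductorLevel
import Fermat.Agent.S58.Descent
import Fermat.Agent.S58.GoodCoeff
import Fermat.Agent.S58.LevelM

/-!
# S58 (sandbox, helper19): the modular side of S58, from the E-side interface `TateE.Hyp W`

`s58_of_hyp (h36 : S36Prop) W (H' : W.Δ ≠ 0 → Hyp W)` : the frozen statement S58.

1. `Descent.exists_newform` : a newform `g` of level `M ∣ N` with `a_ℓ(g) = a_ℓ(W)`, `ℓ ∤ N`;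
2. `GoodCoeff.coeff_eq_of_good` : `a_ℓ(g) = a_ℓ(W)` for every good `ℓ ∤ M`;
3. `LevelM` : every prime `q ∣ M` divides `Δ` and `q² ∤ M`, so `M ∣ rad Δ`;
4. `Descent.exists_eigenform_of_dvd` : an eigenform of level `rad Δ` with the same good `a_ℓ`.
-/

set_option autoImplicit false
set_option linter.unusedSectionVars false
set_option linter.style.haveILetI false

namespace Fermat.Agent.S58.Main

open CuspForm CongruenceSubgroup ModularFormClass WeierstrassCurve
open Fermat.Agent.S58.TateE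

theorem s58_of_hyp (h36 : LevelM.S36Prop)
    (W : WeierstrassCurve ℤ) (H' : W.Δ ≠ 0 → Hyp W) (N : ℕ)
    (p : ℕ) [Fact p.Prime] (hp2 : p ≠ 2) (hirr : W.ModRepIsIrreducible p)
    (hp2N : ¬ p ^ 2 ∣ N)
    (hN : W.IsModularModelOfLevel N) (hbad : ∀ ℓ : ℕ, ℓ.Prime → (ℓ : ℤ) ∣ W.Δ → ℓ ∣ N)
    (hN3 : ∀ q : ℕ, q.Prime → ¬ q ^ 3 ∣ N) :
    W.IsModularModelOfLevel W.conductorLevel := by
  classical
  -- step 0
  have hN0 : N ≠ 0 := by
    rintro rfl
    exact hN3 2 Nat.prime_two (dvd_zero _)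
  have hΔ : W.Δ ≠ 0 := by
    intro h0
    obtain ⟨ℓ, hℓN, hℓ⟩ := Nat.exists_infinite_primes (N + 1)
    have := hbad ℓ hℓ (by rw [h0]; exact dvd_zero _)
    have := Nat.le_of_dvd (Nat.pos_of_ne_zero hN0) this
    omega
  have H : Hyp W := H' hΔ
  obtain ⟨f, hf, hfc⟩ := hN
  -- step 1
  obtain ⟨M, hMN, g, hg, hgf⟩ := Descent.exists_newform N hN0 f hf
  have hM0 : M ≠ 0 := by rintro rfl; exact hN0 (zero_dvd_iff.1 hMN)
  haveI : NeZero M := ⟨hM0⟩
  have hcoef : ∀ ℓ : ℕ, ℓ.Prime → ¬ ℓ ∣ N → qCoeff g ℓ = (W.apOfModel ℓ : ℂ) := by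
    intro ℓ hℓ hℓN
    rw [hgf ℓ hℓ hℓN]
    exact hfc ℓ hℓ (fun hd => hℓN (hbad ℓ hℓ hd)) hℓN
  -- step 3
  have h3 : ∀ q : ℕ, q.Prime → q ∣ M → (q : ℤ) ∣ W.Δ ∧ ¬ q ^ 2 ∣ M := by
    intro q hq hqM
    have hq2 : ¬ q ^ 2 ∣ M := by
      intro hd
      have hq3 : ¬ q ^ 3 ∣ M := fun h => hN3 q hq (h.trans hMN)
      have hqp : q ≠ p := by
        rintro rfl
        exact hp2N (hd.trans hMN)
      have hfac : M.factorization q = 2 := by
        have h1 : 2 ≤ M.factorization q := (hq.pow_dvd_iff_le_factorization hM0).1 hd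
        have h2 : ¬ 3 ≤ M.factorization q := fun h =>
          hq3 ((hq.pow_dvd_iff_le_factorization hM0).2 h)
        omega
      exact LevelM.not_sq_dvd h36 H hΔ hN0 hbad hMN hg hcoef p hp2 hirr hq hqp hfac
    exact ⟨LevelM.dvd_disc_of_dvd_of_not_sq_dvd H hΔ hN0 hbad hMN hg hcoef hq hqM hq2, hq2⟩
  have hMR : M ∣ W.conductorLevel := by
    have hR0 : W.conductorLevel ≠ 0 := W.conductorLevel_pos.ne'
    rw [← Nat.factorization_le_iff_dvd hM0 hR0]
    intro q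
    by_cases hq : q.Prime
    · by_cases hqM : q ∣ M
      · obtain ⟨hqΔ, hq2⟩ := h3 q hq hqM
        have h1 : ¬ 2 ≤ M.factorization q := fun h =>
          hq2 ((hq.pow_dvd_iff_le_factorization hM0).2 h)
        have h2 : 1 ≤ W.conductorLevel.factorization q := by
          have := (hq.pow_dvd_iff_le_factorization hR0 (k := 1)).1
            (by rw [pow_one]; exact (W.prime_dvd_conductorLevel_iff hΔ hq).2 hqΔ)
          exact this
        omega
      · rw [Nat.factorization_eq_zero_of_not_dvd hqM]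
        exact Nat.zero_le _
    · rw [Nat.factorization_eq_zero_of_not_prime M hq]
      exact Nat.zero_le _
  -- step 4
  obtain ⟨h, hh, hhc⟩ := Descent.exists_eigenform_of_dvd hMR hg.1
  refine ⟨h, hh, fun ℓ hℓ hgood hℓR => ?_⟩
  rw [hhc ℓ hℓ hℓR]
  exact GoodCoeff.coeff_eq_of_good H hΔ hN0 hbad hMN hg.1 hcoef hℓ
    (fun hd => hℓR (hd.trans hMR)) hgood

end Fermat.Agent.S58.Main
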